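import Fermat.Prelude.Def_FLTPrelim_ModularRep
import Mathlib.FieldTheory.Galois.Infinite
import Mathlib.Tactic

set_option autoImplicit false
set_option linter.unusedSectionVars false

namespace Fermat.Agent.S51

open WeierstrassCurve WeierstrassCurve.Affine

section Generic

variable {K : Type*} [Field K] (V : Affine K)

/-- the `x`-coordinate, with junk value `0` at the origin -/
def xc : V.Point → K
  | .zero => 0
  | .some x _ _ => x

/-- `ψ₂²` -/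
def ff (x : K) : K := 4 * x ^ 3 + V.b₂ * x ^ 2 + 2 * V.b₄ * x + V.b₆

/-- numerator of the duplication formula -/
def ph (x : K) : K := x ^ 4 - V.b₄ * x ^ 2 - 2 * V.b₆ * x - V.b₈

/-- `ψ₃` -/
def p3 (x : K) : K := 3 * x ^ 4 + V.b₂ * x ^ 3 + 3 * V.b₄ * x ^ 2 + 3 * V.b₆ * x + V.b₈

/-- `ψ₄ / ψ₂` -/
def g4 (x : K) : K := 2 * x ^ 6 + V.b₂ * x ^ 5 + 5 * V.b₄ * x ^ 4 + 10 * V.b₆ * x ^ 3 +
  10 * V.b₈ * x ^ 2 + (V.b₂ * V.b₈ - V.b₄ * V.b₆) * x + (V.b₄ * V.b₈ - V.b₆ ^ 2)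

/-- `ψ₅` -/
def p5 (x : K) : K := g4 V x * ff V x ^ 2 - p3 V x ^ 3

variable {V}

@[simp] lemma xc_some {x y : K} (h : V.Nonsingular x y) : xc V (.some x y h) = x := rfl

lemma xc_neg (P : V.Point) : xc V (-P) = xc V P := by
  cases P <;> rfl

lemma eq_or_eq_neg_of_xc_eq {P Q : V.Point} (hP : P ≠ 0) (hQ : Q ≠ 0)
    (h : xc V P = xc V Q) : P = Q ∨ P = -Q := by
  match P, Q with
  | .zero, _ => exact absurd rfl hP
  | _, .zero => exact absurd rfl hQ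
  | .some x₁ _ _, .some x₂ _ _ => exact Point.X_eq_iff.mp h

lemma not_ff_ph (hΔ : V.Δ ≠ 0) (x : K) (h1 : ff V x = 0) (h2 : ph V x = 0) : False := by
  apply hΔ
  have hr := V.b_relation
  unfold ff at h1
  unfold ph at h2
  rw [WeierstrassCurve.Δ]
  linear_combination (-48 * x ^ 2 - 8 * V.b₂ * x + V.b₂ ^ 2 - 32 * V.b₄) * h2 +
    (12 * x ^ 3 - V.b₂ * x ^ 2 - 10 * V.b₄ * x + V.b₂ * V.b₄ - 27 * V.b₆) * h1 -
    (12 * x ^ 2 + 2 * x * V.b₂ + 8 * V.b₄) * hr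

lemma p3_eq (x : K) : p3 V x = x * ff V x - ph V x := by
  unfold p3 ff ph; ring

lemma psi_sq {x y : K} (h : V.Equation x y) : (y - V.negY x y) ^ 2 = ff V x := by
  rw [Affine.equation_iff] at h
  unfold ff
  rw [Affine.negY, WeierstrassCurve.b₂, WeierstrassCurve.b₄, WeierstrassCurve.b₆]
  linear_combination 4 * h

variable [DecidableEq K]

lemma two_nsmul_eq_zero_iff {P : V.Point} (hP : P ≠ 0) : 2 • P = 0 ↔ ff V (xc V P) = 0 := by
  match P with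
  | .zero => exact absurd rfl hP
  | .some x y h =>
    rw [two_nsmul, xc_some, ← psi_sq h.1]
    by_cases hy : y = V.negY x y
    · rw [Point.add_self_of_Y_eq hy, sub_eq_zero.mpr hy]
      exact ⟨fun _ => by ring, fun _ => rfl⟩
    · rw [Point.add_self_of_Y_ne hy]
      exact ⟨fun h0 => absurd h0 (Point.some_ne_zero _),
        fun h0 => absurd (sub_eq_zero.mp (pow_eq_zero_iff (two_ne_zero)|>.mp h0)) hy⟩

lemma xc_two_nsmul {P : V.Point} (hP : P ≠ 0) (h2 : ff V (xc V P) ≠ 0) :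
    xc V (2 • P) * ff V (xc V P) = ph V (xc V P) := by
  match P with
  | .zero => exact absurd rfl hP
  | .some x y h =>
    rw [xc_some, ← psi_sq h.1] at h2
    have hy : y ≠ V.negY x y := by
      intro hy; apply h2; rw [sub_eq_zero.mpr hy]; ring
    have hy' : y - V.negY x y ≠ 0 := sub_ne_zero.mpr hy
    rw [two_nsmul, Point.add_self_of_Y_ne hy, xc_some, xc_some, ← psi_sq h.1,
      Affine.slope_of_Y_ne rfl hy, Affine.addX]
    have he := (Affine.equation_iff ..).mp h.1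
    field_simp
    unfold ph
    rw [Affine.negY, WeierstrassCurve.b₄, WeierstrassCurve.b₆, WeierstrassCurve.b₈]
    linear_combination (-8 * x - V.a₁ ^ 2 - 4 * V.a₂) * he

lemma exists_point [IsAlgClosed K] (h2 : (2 : K) ≠ 0) (hΔ : V.Δ ≠ 0) (x : K) :
    ∃ P : V.Point, P ≠ 0 ∧ xc V P = x := by
  obtain ⟨s, hs⟩ := IsAlgClosed.exists_pow_nat_eq (ff V x) (n := 2) (by norm_num)
  have he : V.Equation x ((s - V.a₁ * x - V.a₃) / 2) := by
    rw [Affine.equation_iff]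
    unfold ff at hs
    rw [WeierstrassCurve.b₂, WeierstrassCurve.b₄, WeierstrassCurve.b₆] at hs
    field_simp
    linear_combination hs
  exact ⟨.some x _ ((Affine.equation_iff_nonsingular_of_Δ_ne_zero hΔ).mp he),
    Point.some_ne_zero _, rfl⟩

lemma three_nsmul_eq_zero_iff (hΔ : V.Δ ≠ 0) {P : V.Point} (hP : P ≠ 0) :
    3 • P = 0 ↔ p3 V (xc V P) = 0 := by
  constructor
  · intro h
    have h2 : 2 • P = -P := by
      rw [eq_neg_iff_add_eq_zero, ← h]; abel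
    have h2' : 2 • P ≠ 0 := by rw [h2]; simpa using hP
    have hf : ff V (xc V P) ≠ 0 := fun h0 => h2' ((two_nsmul_eq_zero_iff hP).mpr h0)
    have := xc_two_nsmul hP hf
    rw [h2, xc_neg] at this
    rw [p3_eq, this, sub_self]
  · intro h
    rw [p3_eq, sub_eq_zero] at h
    have hf : ff V (xc V P) ≠ 0 := fun h0 => not_ff_ph hΔ _ h0 (by rw [← h, h0, mul_zero])
    have h2' : 2 • P ≠ 0 := fun h0 => hf ((two_nsmul_eq_zero_iff hP).mp h0)
    have := xc_two_nsmul hP hf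
    rw [← h] at this
    have hx : xc V (2 • P) = xc V P := mul_right_cancel₀ hf this
    rcases eq_or_eq_neg_of_xc_eq h2' hP hx with h3 | h3
    · exfalso; apply hP
      have : P + P = P := by rw [← two_nsmul]; exact h3
      simpa using this
    · have : 3 • P = 2 • P + P := by abel
      rw [this, h3, neg_add_cancel]

lemma five_torsion_facts {P : V.Point} (hP : P ≠ 0) (h5 : 5 • P = 0) :
    2 • P ≠ 0 ∧ ff V (xc V P) ≠ 0 ∧ ff V (xc V (2 • P)) ≠ 0 ∧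
      xc V (2 • P) * ff V (xc V P) = ph V (xc V P) ∧
      xc V P * ff V (xc V (2 • P)) = ph V (xc V (2 • P)) ∧ xc V P ≠ xc V (2 • P) := by
  have h2 : 2 • P ≠ 0 := by
    intro h
    apply hP
    have : P = 5 • P - 2 • (2 • P) := by abel
    rw [this, h5, h]; simp
  have h4 : 2 • (2 • P) = -P := by
    rw [eq_neg_iff_add_eq_zero, ← h5]; abel
  have h4' : 2 • (2 • P) ≠ 0 := by rw [h4]; simpa using hP
  have hf1 : ff V (xc V P) ≠ 0 := fun h0 => h2 ((two_nsmul_eq_zero_iff hP).mpr h0)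
  have hf2 : ff V (xc V (2 • P)) ≠ 0 := fun h0 => h4' ((two_nsmul_eq_zero_iff h2).mpr h0)
  refine ⟨h2, hf1, hf2, xc_two_nsmul hP hf1, ?_, ?_⟩
  · have := xc_two_nsmul h2 hf2
    rwa [h4, xc_neg] at this
  · intro hx
    rcases eq_or_eq_neg_of_xc_eq hP h2 hx with h3 | h3
    · apply hP
      have : P + P = P := by rw [← two_nsmul]; exact h3.symm
      simpa using this
    · apply hP
      have : P = 2 • (P + 2 • P) - 5 • P := by abel
      rw [this, h5]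
      nth_rewrite 1 [h3]
      simp

/-- numerator of `x(4P) - x(P)` -/
def F16 (V : Affine K) (x : K) : K :=
  ph V x ^ 4 - V.b₄ * ph V x ^ 2 * ff V x ^ 2 - 2 * V.b₆ * ph V x * ff V x ^ 3 -
    V.b₈ * ff V x ^ 4 - x * ff V x * (4 * ph V x ^ 3 + V.b₂ * ph V x ^ 2 * ff V x +
      2 * V.b₄ * ph V x * ff V x ^ 2 + V.b₆ * ff V x ^ 3)

lemma F16_eq {x1 x2 : K} (h1 : x2 * ff V x1 = ph V x1) :
    F16 V x1 = ff V x1 ^ 4 * (ph V x2 - x1 * ff V x2) := by
  unfold F16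
  rw [← h1]
  generalize ff V x1 = F
  unfold ph ff
  ring

lemma ff_mul_eq {x1 x2 : K} (h1 : x2 * ff V x1 = ph V x1) :
    ff V x2 * ff V x1 ^ 3 = g4 V x1 ^ 2 := by
  have hr := V.b_relation
  have key : 4 * ph V x1 ^ 3 + V.b₂ * ph V x1 ^ 2 * ff V x1 +
      2 * V.b₄ * ph V x1 * ff V x1 ^ 2 + V.b₆ * ff V x1 ^ 3 = g4 V x1 ^ 2 := by
    unfold ph ff g4
    linear_combination (-13*x1^8 - 8*x1^7*V.b₂ - x1^6*V.b₂^2 - 28*x1^6*V.b₄ - 6*x1^5*V.b₂*V.b₄
      - 38*x1^5*V.b₆ - 7*x1^4*V.b₂*V.b₆ - 8*x1^4*V.b₄^2 - 22*x1^4*V.b₈ - 4*x1^3*V.b₂*V.b₈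
      - 16*x1^3*V.b₄*V.b₆ - 8*x1^2*V.b₄*V.b₈ - 7*x1^2*V.b₆^2 - 6*x1*V.b₆*V.b₈ - V.b₈^2) * hr
  rw [← key, ← h1]
  generalize ff V x1 = F
  unfold ff
  ring

lemma F16_eq_neg (x : K) : F16 V x = - (p3 V x * p5 V x) := by
  have hr := V.b_relation
  unfold F16 p5 p3 g4 ph ff
  linear_combination (48*x^12 + 40*x^11*V.b₂ + 11*x^10*V.b₂^2 + 96*x^10*V.b₄ + x^9*V.b₂^3
    + 52*x^9*V.b₂*V.b₄ + 72*x^9*V.b₆ + 7*x^8*V.b₂^2*V.b₄ + 38*x^8*V.b₂*V.b₆ + 60*x^8*V.b₄^2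
    + 16*x^8*V.b₈ + 5*x^7*V.b₂^2*V.b₆ + 16*x^7*V.b₂*V.b₄^2 + 8*x^7*V.b₂*V.b₈ + 84*x^7*V.b₄*V.b₆
    + x^6*V.b₂^2*V.b₈ + 22*x^6*V.b₂*V.b₄*V.b₆ + 12*x^6*V.b₄^3 + 16*x^6*V.b₄*V.b₈ + 27*x^6*V.b₆^2
    + 4*x^5*V.b₂*V.b₄*V.b₈ + 7*x^5*V.b₂*V.b₆^2 + 24*x^5*V.b₄^2*V.b₆ + 8*x^5*V.b₆*V.b₈
    + 2*x^4*V.b₂*V.b₆*V.b₈ + 4*x^4*V.b₄^2*V.b₈ + 15*x^4*V.b₄*V.b₆^2 + 4*x^3*V.b₄*V.b₆*V.b₈
    + 3*x^3*V.b₆^3 + x^2*V.b₆^2*V.b₈) * hr

lemma p5_eq_zero_of_five (hΔ : V.Δ ≠ 0) {P : V.Point} (hP : P ≠ 0) (h5 : 5 • P = 0) :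
    p5 V (xc V P) = 0 := by
  obtain ⟨h2, hf1, hf2, e1, e2, hne⟩ := five_torsion_facts hP h5
  have h16 : F16 V (xc V P) = 0 := by rw [F16_eq e1, e2, sub_self, mul_zero]
  rw [F16_eq_neg, neg_eq_zero, mul_eq_zero] at h16
  rcases h16 with h3 | h
  · exfalso
    apply hP
    have h3' := (three_nsmul_eq_zero_iff hΔ hP).mpr h3
    have : P = 2 • (3 • P) - 5 • P := by abel
    rw [this, h3', h5]; simp
  · exact h

lemma five_nsmul_eq_zero_of_p5 (hΔ : V.Δ ≠ 0) {P : V.Point} (hP : P ≠ 0)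
    (h : p5 V (xc V P) = 0) : 5 • P = 0 := by
  set x := xc V P with hx
  have hf : ff V x ≠ 0 := by
    intro h0
    have h3 : p3 V x = 0 := by
      unfold p5 at h
      rw [h0] at h
      have : p3 V x ^ 3 = 0 := by linear_combination -h
      exact pow_eq_zero_iff (three_ne_zero) |>.mp this
    rw [p3_eq, h0, mul_zero, zero_sub, neg_eq_zero] at h3
    exact not_ff_ph hΔ x h0 h3
  have h2 : 2 • P ≠ 0 := fun h0 => hf ((two_nsmul_eq_zero_iff hP).mp h0)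
  have e1 := xc_two_nsmul hP hf
  rw [← hx] at e1
  have e3 := ff_mul_eq e1
  have hg : g4 V x ≠ 0 := by
    intro h0
    have h3 : p3 V x = 0 := by
      unfold p5 at h
      rw [h0] at h
      have : p3 V x ^ 3 = 0 := by linear_combination -h
      exact pow_eq_zero_iff (three_ne_zero) |>.mp this
    have h3' := (three_nsmul_eq_zero_iff hΔ hP).mpr h3
    have h2' : 2 • P = -P := by
      rw [eq_neg_iff_add_eq_zero, ← h3']; abel
    rw [h2', xc_neg, ← hx, h0] at e3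
    have : ff V x ^ 4 = 0 := by linear_combination e3
    exact hf (pow_eq_zero_iff (four_ne_zero) |>.mp this)
  have h3 : p3 V x ≠ 0 := by
    intro h0
    unfold p5 at h
    rw [h0] at h
    have : g4 V x * ff V x ^ 2 = 0 := by linear_combination h
    rcases mul_eq_zero.mp this with h1 | h1
    · exact hg h1
    · exact hf (pow_eq_zero_iff (two_ne_zero) |>.mp h1)
  have hf2 : ff V (xc V (2 • P)) ≠ 0 := by
    intro h0
    rw [h0, zero_mul] at e3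
    exact hg (pow_eq_zero_iff (two_ne_zero) |>.mp e3.symm)
  have h4 : 2 • (2 • P) ≠ 0 := fun h0 => hf2 ((two_nsmul_eq_zero_iff h2).mp h0)
  have e2 := xc_two_nsmul h2 hf2
  have h16 : F16 V x = 0 := by rw [F16_eq_neg, h, mul_zero, neg_zero]
  rw [F16_eq e1, mul_eq_zero] at h16
  have e4 : ph V (xc V (2 • P)) = x * ff V (xc V (2 • P)) := by
    rcases h16 with h1 | h1
    · exact absurd (pow_eq_zero_iff (four_ne_zero) |>.mp h1) hf
    · exact sub_eq_zero.mp h1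
  rw [e4] at e2
  have hx4 : xc V (2 • (2 • P)) = xc V P := mul_right_cancel₀ hf2 e2
  rcases eq_or_eq_neg_of_xc_eq h4 hP hx4 with h5 | h5
  · exfalso
    apply h3
    apply (three_nsmul_eq_zero_iff hΔ hP).mp
    have : 3 • P = 2 • (2 • P) - P := by abel
    rw [this, h5, sub_self]
  · have : 5 • P = 2 • (2 • P) + P := by abel
    rw [this, h5, neg_add_cancel]

section Polys

open Polynomial

/-- `ψ₃` as a polynomial -/
noncomputable def p3P (V : Affine K) : K[X] :=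
  C 3 * X ^ 4 + C V.b₂ * X ^ 3 + C (3 * V.b₄) * X ^ 2 + C (3 * V.b₆) * X + C V.b₈

/-- `ψ₅` as a polynomial -/
noncomputable def p5P (V : Affine K) : K[X] :=
  (C 2 * X ^ 6 + C V.b₂ * X ^ 5 + C (5 * V.b₄) * X ^ 4 + C (10 * V.b₆) * X ^ 3 +
    C (10 * V.b₈) * X ^ 2 + C (V.b₂ * V.b₈ - V.b₄ * V.b₆) * X + C (V.b₄ * V.b₈ - V.b₆ ^ 2)) *
    (C 4 * X ^ 3 + C V.b₂ * X ^ 2 + C (2 * V.b₄) * X + C V.b₆) ^ 2 -
  (C 3 * X ^ 4 + C V.b₂ * X ^ 3 + C (3 * V.b₄) * X ^ 2 + C (3 * V.b₆) * X + C V.b₈) ^ 3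

lemma eval_p3P (x : K) : (p3P V).eval x = p3 V x := by
  simp only [p3P, p3, eval_add, eval_mul, eval_C, eval_pow, eval_X]

lemma eval_p5P (x : K) : (p5P V).eval x = p5 V x := by
  simp only [p5P, p5, p3, g4, ff, eval_add, eval_sub, eval_mul, eval_C, eval_pow, eval_X]

lemma natDegree_p3P [CharZero K] : (p3P V).natDegree = 4 := by
  unfold p3P
  compute_degree!

lemma natDegree_p5P [CharZero K] : (p5P V).natDegree = 12 := by
  unfold p5P
  compute_degree!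

lemma exists_three_torsion [IsAlgClosed K] [CharZero K] (hΔ : V.Δ ≠ 0) :
    ∃ P : V.Point, P ≠ 0 ∧ 3 • P = 0 := by
  obtain ⟨x, hx⟩ := IsAlgClosed.exists_root (p3P V) (by
    rw [degree_eq_natDegree (by intro h; simpa [h] using natDegree_p3P (V := V)), natDegree_p3P]
    norm_num)
  obtain ⟨P, hP, rfl⟩ := exists_point two_ne_zero hΔ x
  rw [IsRoot.def, eval_p3P] at hx
  exact ⟨P, hP, (three_nsmul_eq_zero_iff hΔ hP).mpr hx⟩

lemma exists_five_torsion [IsAlgClosed K] [CharZero K] (hΔ : V.Δ ≠ 0) :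
    ∃ P : V.Point, P ≠ 0 ∧ 5 • P = 0 := by
  obtain ⟨x, hx⟩ := IsAlgClosed.exists_root (p5P V) (by
    rw [degree_eq_natDegree (by intro h; simpa [h] using natDegree_p5P (V := V)), natDegree_p5P]
    norm_num)
  obtain ⟨P, hP, rfl⟩ := exists_point two_ne_zero hΔ x
  rw [IsRoot.def, eval_p5P] at hx
  exact ⟨P, hP, five_nsmul_eq_zero_of_p5 hΔ hP hx⟩

/-- a finite set of points whose `x`-coordinates are roots of `F` is small -/
lemma card_le_of_roots (F : K[X]) (hF : F ≠ 0) (s : Finset V.Point)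
    (hs : ∀ P ∈ s, P ≠ 0 → F.eval (xc V P) = 0) : s.card ≤ 2 * (F.natDegree + 1) := by
  classical
  have h1 : s.card ≤ 2 * (s.image Point.xRep).card := by
    apply Finset.card_le_mul_card_image
    intro b hb
    obtain ⟨P0, hP0, rfl⟩ := Finset.mem_image.mp hb
    have hsub : {a ∈ s | a.xRep = P0.xRep} ⊆ ({P0, -P0} : Finset V.Point) := by
      intro Q hQ
      rw [Finset.mem_filter] at hQ
      rcases Point.eq_or_eq_neg_of_xRep_eq_xRep hQ.2 with h | h <;> simp [h]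
    exact (Finset.card_le_card hsub).trans Finset.card_le_two
  have h2 : s.image Point.xRep ⊆
      insert ![1, 0] (F.roots.toFinset.image (fun x : K => ![x, 1])) := by
    intro b hb
    obtain ⟨P, hP, rfl⟩ := Finset.mem_image.mp hb
    match P, hP with
    | .zero, _ => exact Finset.mem_insert_self _ _
    | .some x y h, hP =>
      apply Finset.mem_insert_of_mem
      apply Finset.mem_image.mpr
      refine ⟨x, ?_, rfl⟩
      rw [Multiset.mem_toFinset, mem_roots hF]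
      exact hs _ hP (Point.some_ne_zero _)
  have h3 : (s.image Point.xRep).card ≤ F.natDegree + 1 := by
    refine (Finset.card_le_card h2).trans ((Finset.card_insert_le _ _).trans ?_)
    apply Nat.succ_le_succ
    refine Finset.card_image_le.trans ((Multiset.toFinset_card_le _).trans (card_roots' F))
  omega

lemma mem_torsionBy_iff_nsmul (n : ℕ) (P : V.Point) :
    P ∈ Submodule.torsionBy ℤ V.Point n ↔ n • P = 0 := by
  rw [Submodule.mem_torsionBy_iff, natCast_zsmul]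

end Polys

end Generic

section LinAlg

lemma finite_and_card_le {α : Type*} (B : ℕ) (h : ∀ s : Finset α, s.card ≤ B) :
    Finite α ∧ Nat.card α ≤ B := by
  have hfin : Finite α := by
    by_contra hinf
    rw [not_finite_iff_infinite] at hinf
    obtain ⟨s, hs⟩ := Infinite.exists_subset_card_eq α (B + 1)
    have := h s
    omega
  refine ⟨hfin, ?_⟩
  have := Fintype.ofFinite α
  rw [Nat.card_eq_fintype_card]
  exact h Finset.univ

lemma exists_nsmul_of_card_lt {p : ℕ} [Fact p.Prime] {M : Type*} [AddCommGroup M]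
    [Module (ZMod p) M] [Finite M] (hc : Nat.card M < p ^ 3) (N : Submodule (ZMod p) M)
    (hT : N ≠ ⊤) {P : M} (hPN : P ∈ N) (hP : P ≠ 0) {Q : M} (hQ : Q ∈ N) :
    ∃ k : ℕ, Q = k • P := by
  have hp : 1 < p := (Fact.out : p.Prime).one_lt
  have h1 : Module.finrank (ZMod p) M < 3 := by
    have := Module.natCard_eq_pow_finrank (K := ZMod p) (V := M)
    rw [Nat.card_zmod] at this
    rw [this] at hc
    exact (Nat.pow_lt_pow_iff_right hp).mp hc
  have h2 := Submodule.finrank_lt hT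
  have h3 : Module.finrank (ZMod p) N ≠ 0 := by
    intro h0
    rw [Submodule.finrank_eq_zero] at h0
    rw [h0, Submodule.mem_bot] at hPN
    exact hP hPN
  have h4 : Module.finrank (ZMod p) N = 1 := by omega
  have hP' : (⟨P, hPN⟩ : N) ≠ 0 := fun h => hP (congrArg Subtype.val h)
  obtain ⟨c, hc⟩ := (finrank_eq_one_iff_of_nonzero' _ hP').mp h4 ⟨Q, hQ⟩
  refine ⟨c.val, ?_⟩
  have := congrArg Subtype.val hc
  simp only [Submodule.coe_smul] at this
  rw [← this, ← Nat.cast_smul_eq_nsmul (ZMod p), ZMod.natCast_zmod_val]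

end LinAlg

section Count

open Polynomial

variable {K : Type*} [Field K] [DecidableEq K] {V : Affine K}

lemma torsion_finite_card (n : ℕ) (F : K[X]) (hF : F ≠ 0)
    (h : ∀ P : V.Point, P ≠ 0 → n • P = 0 → F.eval (xc V P) = 0) :
    Finite (Submodule.torsionBy ℤ V.Point n) ∧
      Nat.card (Submodule.torsionBy ℤ V.Point n) ≤ 2 * (F.natDegree + 1) := by
  apply finite_and_card_le
  intro s
  have := card_le_of_roots F hF (s.map (Function.Embedding.subtype _)) (by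
    intro P hP hP0
    obtain ⟨t, -, rfl⟩ := Finset.mem_map.mp hP
    exact h _ hP0 ((mem_torsionBy_iff_nsmul n _).mp t.2))
  rwa [Finset.card_map] at this

lemma nsmul_eq_mod_nsmul {n : ℕ} {P : V.Point} (hn : n • P = 0) (k : ℕ) :
    k • P = (k % n) • P := by
  conv_lhs => rw [← Nat.mod_add_div k n]
  rw [add_nsmul, mul_nsmul, hn, smul_zero, add_zero]

end Count

section Galois

open WeierstrassCurve.Affine.Point

variable {R S K : Type*} [CommRing R] [CommRing S] [Field K] [DecidableEq K] {W' : Affine R}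
  [Algebra R S] [Algebra R K] [Algebra S K] [IsScalarTower R S K]

lemma xc_smul (σ : K ≃ₐ[S] K) (P : (W'⁄K).Point) :
    xc (W'⁄K) (σ • P) = σ (xc (W'⁄K) P) := by
  cases P
  · exact (map_zero σ).symm
  · rfl

/-- a stable proper nonzero submodule of `E[p]` is a line, provided `#E[p] < p ^ 3` -/
lemma exists_line {p : ℕ} [Fact p.Prime]
    (hfin : Finite (Submodule.torsionBy ℤ (W'⁄K).Point p))
    (hcard : Nat.card (Submodule.torsionBy ℤ (W'⁄K).Point p) < p ^ 3)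
    (hnt : ∃ P : (W'⁄K).Point, P ≠ 0 ∧ p • P = 0)
    (h : ¬ GaloisRepIsIrreducible (K := K) S W' p) :
    ∃ P : (W'⁄K).Point, P ≠ 0 ∧ p • P = 0 ∧
      ∀ σ : K ≃ₐ[S] K, ∃ k : ℕ, 0 < k ∧ k < p ∧ σ • P = k • P := by
  unfold GaloisRepIsIrreducible at h
  push Not at h
  obtain ⟨P0, hP0, hpP0⟩ := hnt
  have hnt' : Nontrivial (Submodule.torsionBy ℤ (W'⁄K).Point p) :=
    ⟨⟨⟨P0, (mem_torsionBy_iff_nsmul p _).mpr hpP0⟩, 0, fun h0 => hP0 (congrArg Subtype.val h0)⟩⟩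
  obtain ⟨N, hN, hbot, htop⟩ := h hnt'
  obtain ⟨t, htN, ht0⟩ := Submodule.exists_mem_ne_zero_of_ne_bot hbot
  have hP : (t : (W'⁄K).Point) ≠ 0 := fun h0 => ht0 (Subtype.ext h0)
  have hpP : p • (t : (W'⁄K).Point) = 0 := (mem_torsionBy_iff_nsmul p _).mp t.2
  refine ⟨t, hP, hpP, fun σ => ?_⟩
  obtain ⟨k, hk⟩ := exists_nsmul_of_card_lt hcard N htop htN ht0 (hN σ t htN)
  have hk' : σ • (t : (W'⁄K).Point) = k • (t : (W'⁄K).Point) := by
    have := congrArg Subtype.val hk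
    rwa [AddSubmonoidClass.coe_nsmul] at this
  rw [nsmul_eq_mod_nsmul hpP] at hk'
  refine ⟨k % p, ?_, Nat.mod_lt _ (Fact.out : p.Prime).pos, hk'⟩
  rcases Nat.eq_zero_or_pos (k % p) with h0 | h0
  · exfalso
    rw [h0, zero_nsmul] at hk'
    exact hP ((smul_eq_zero_iff_eq σ).mp hk')
  · exact h0

theorem exists_fixed_root_p3 [IsAlgClosed K] [CharZero K] (hΔ : (W'⁄K).Δ ≠ 0)
    (h : ¬ GaloisRepIsIrreducible (K := K) S W' 3) :
    ∃ x : K, (∀ σ : K ≃ₐ[S] K, σ x = x) ∧ p3 (W'⁄K) x = 0 := by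
  have hF : p3P (W'⁄K) ≠ 0 := by
    intro h0; simpa [h0] using natDegree_p3P (V := (W'⁄K))
  obtain ⟨hfin, hcard⟩ := torsion_finite_card (V := (W'⁄K)) 3 (p3P (W'⁄K)) hF (by
    intro P hP h3
    rw [eval_p3P]
    exact (three_nsmul_eq_zero_iff hΔ hP).mp h3)
  rw [natDegree_p3P] at hcard
  obtain ⟨P, hP, h3, hσ⟩ := exists_line (S := S) hfin (by omega) (exists_three_torsion hΔ) h
  refine ⟨xc _ P, fun σ => ?_, (three_nsmul_eq_zero_iff hΔ hP).mp h3⟩
  obtain ⟨k, hk0, hk3, hk⟩ := hσ σ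
  rw [← xc_smul, hk]
  interval_cases k
  · rw [one_nsmul]
  · have : 2 • P = -P := by
      rw [eq_neg_iff_add_eq_zero, ← h3]; abel
    rw [this, xc_neg]

theorem exists_pair_of_not_irr5 [IsAlgClosed K] [CharZero K] (hΔ : (W'⁄K).Δ ≠ 0)
    (h : ¬ GaloisRepIsIrreducible (K := K) S W' 5) :
    ∃ x1 x2 : K, x1 ≠ x2 ∧ (∀ σ : K ≃ₐ[S] K, σ (x1 + x2) = x1 + x2) ∧
      (∀ σ : K ≃ₐ[S] K, σ (x1 * x2) = x1 * x2) ∧ ff (W'⁄K) x1 ≠ 0 ∧ ff (W'⁄K) x2 ≠ 0 ∧
      x2 * ff (W'⁄K) x1 = ph (W'⁄K) x1 ∧ x1 * ff (W'⁄K) x2 = ph (W'⁄K) x2 := by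
  have : Fact (Nat.Prime 5) := ⟨by norm_num⟩
  have hF : p5P (W'⁄K) ≠ 0 := by
    intro h0; simpa [h0] using natDegree_p5P (V := (W'⁄K))
  obtain ⟨hfin, hcard⟩ := torsion_finite_card (V := (W'⁄K)) 5 (p5P (W'⁄K)) hF (by
    intro P hP h5
    rw [eval_p5P]
    exact p5_eq_zero_of_five hΔ hP h5)
  rw [natDegree_p5P] at hcard
  obtain ⟨P, hP, h5, hσ⟩ := exists_line (S := S) hfin (by omega) (exists_five_torsion hΔ) h
  obtain ⟨h2, hf1, hf2, e1, e2, hne⟩ := five_torsion_facts hP h5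
  have key : ∀ σ : K ≃ₐ[S] K,
      (σ (xc _ P) = xc _ P ∧ σ (xc _ (2 • P)) = xc _ (2 • P)) ∨
      (σ (xc _ P) = xc _ (2 • P) ∧ σ (xc _ (2 • P)) = xc _ P) := by
    intro σ
    obtain ⟨k, hk0, hk5, hk⟩ := hσ σ
    have hs2 : σ • (2 • P) = 2 • (σ • P) := by rw [two_nsmul, two_nsmul, smul_add]
    rw [← xc_smul, ← xc_smul, hs2, hk]
    interval_cases k
    · left
      rw [one_nsmul]
      exact ⟨rfl, rfl⟩
    · right
      have : 2 • (2 • P) = -P := by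
        rw [eq_neg_iff_add_eq_zero, ← h5]; abel
      rw [this, xc_neg]
      exact ⟨rfl, rfl⟩
    · right
      have h3 : 3 • P = -((2 : ℕ) • P : (W'⁄K).Point) := by
        rw [eq_neg_iff_add_eq_zero, ← h5]; abel
      have h6 : 2 • (3 • P) = P := by
        have : 2 • (3 • P) = 5 • P + P := by abel
        rw [this, h5, zero_add]
      rw [h6, h3, xc_neg]
      exact ⟨rfl, rfl⟩
    · left
      have h4 : 4 • P = -P := by
        rw [eq_neg_iff_add_eq_zero, ← h5]; abel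
      rw [h4, xc_neg, smul_neg, xc_neg]
      exact ⟨rfl, rfl⟩
  refine ⟨xc _ P, xc _ (2 • P), hne, fun σ => ?_, fun σ => ?_, hf1, hf2, e1, e2⟩
  · rcases key σ with ⟨a, b⟩ | ⟨a, b⟩
    · rw [map_add, a, b]
    · rw [map_add, a, b, add_comm]
  · rcases key σ with ⟨a, b⟩ | ⟨a, b⟩
    · rw [map_mul, a, b]
    · rw [map_mul, a, b, mul_comm]

end Galois

section Final

lemma exists_rat_of_fixed [alg : Algebra ℚ (AlgebraicClosure ℚ)] (x : AlgebraicClosure ℚ)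
    (h : ∀ σ : AlgebraicClosure ℚ ≃ₐ[ℚ] AlgebraicClosure ℚ, σ x = x) :
    ∃ q : ℚ, (q : AlgebraicClosure ℚ) = x := by
  obtain rfl : alg = AlgebraicClosure.instAlgebra ℚ := Subsingleton.elim _ _
  obtain ⟨q, hq⟩ := (InfiniteGalois.mem_range_algebraMap_iff_fixed x).mpr h
  exact ⟨q, by rw [← hq, eq_ratCast]⟩

theorem exists_of_not_irr3 (W : WeierstrassCurve ℤ) (hΔ : W.Δ ≠ 0)
    (h : ¬ W.ModRepIsIrreducible 3) :
    ∃ x0 : ℚ, 3 * x0 ^ 4 + (W.b₂ : ℚ) * x0 ^ 3 + 3 * (W.b₄ : ℚ) * x0 ^ 2 +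
      3 * (W.b₆ : ℚ) * x0 + (W.b₈ : ℚ) = 0 := by
  unfold WeierstrassCurve.ModRepIsIrreducible at h
  obtain ⟨x, hx, h3⟩ := exists_fixed_root_p3 (by
    simp only [Affine.baseChange, WeierstrassCurve.baseChange, WeierstrassCurve.map_Δ, eq_intCast,
      eq_ratCast, Rat.cast_intCast]
    exact_mod_cast hΔ) h
  obtain ⟨q, rfl⟩ := exists_rat_of_fixed x hx
  refine ⟨q, ?_⟩
  unfold p3 at h3
  simp only [Affine.baseChange, WeierstrassCurve.baseChange, WeierstrassCurve.map_b₂,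
    WeierstrassCurve.map_b₄, WeierstrassCurve.map_b₆,
    WeierstrassCurve.map_b₈, eq_intCast, eq_ratCast, Rat.cast_intCast] at h3
  exact_mod_cast h3

theorem exists_of_not_irr5 (W : WeierstrassCurve ℤ) (hΔ : W.Δ ≠ 0)
    (h : ¬ W.ModRepIsIrreducible 5) :
    ∃ s m : ℚ, s ^ 2 - 4 * m ≠ 0 ∧
      -s ^ 3 + 6 * s * m + (W.b₄ : ℚ) * s + (W.b₂ : ℚ) * m + (W.b₆ : ℚ) = 0 ∧
      -s ^ 4 + 8 * s ^ 2 * m + (W.b₄ : ℚ) * s ^ 2 + (W.b₂ : ℚ) * s * m + 3 * (W.b₆ : ℚ) * s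
        - 10 * m ^ 2 + 2 * (W.b₄ : ℚ) * m + 2 * (W.b₈ : ℚ) = 0 ∧
      ∀ x0 : ℚ, 3 * x0 ^ 4 + (W.b₂ : ℚ) * x0 ^ 3 + 3 * (W.b₄ : ℚ) * x0 ^ 2 +
        3 * (W.b₆ : ℚ) * x0 + (W.b₈ : ℚ) = 0 → x0 ^ 2 - s * x0 + m ≠ 0 := by
  unfold WeierstrassCurve.ModRepIsIrreducible at h
  obtain ⟨x1, x2, hne, hs, hm, hf1, hf2, e1, e2⟩ := exists_pair_of_not_irr5 (by
    simp only [Affine.baseChange, WeierstrassCurve.baseChange, WeierstrassCurve.map_Δ, eq_intCast,
      eq_ratCast, Rat.cast_intCast]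
    exact_mod_cast hΔ) h
  obtain ⟨s, hs⟩ := exists_rat_of_fixed _ hs
  obtain ⟨m, hm⟩ := exists_rat_of_fixed _ hm
  unfold ff at hf1 hf2
  unfold ff ph at e1 e2
  simp only [Affine.baseChange, WeierstrassCurve.baseChange, WeierstrassCurve.map_b₂,
    WeierstrassCurve.map_b₄, WeierstrassCurve.map_b₆,
    WeierstrassCurve.map_b₈, eq_intCast, eq_ratCast, Rat.cast_intCast] at hf1 hf2 e1 e2
  have hne' : x1 - x2 ≠ 0 := sub_ne_zero.mpr hne
  refine ⟨s, m, ?_, ?_, ?_, ?_⟩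
  · intro h0
    have h0' : ((s ^ 2 - 4 * m : ℚ) : AlgebraicClosure ℚ) = 0 := by rw [h0, Rat.cast_zero]
    push_cast at h0'
    rw [hs, hm] at h0'
    have : (x1 - x2) ^ 2 = 0 := by linear_combination h0'
    exact hne' (pow_eq_zero_iff two_ne_zero |>.mp this)
  · have : ((-s ^ 3 + 6 * s * m + (W.b₄ : ℚ) * s + (W.b₂ : ℚ) * m + (W.b₆ : ℚ) : ℚ) :
        AlgebraicClosure ℚ) = 0 := by
      push_cast
      rw [hs, hm]
      apply mul_left_cancel₀ hne'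
      linear_combination e1 - e2
    exact_mod_cast this
  · have : ((-s ^ 4 + 8 * s ^ 2 * m + (W.b₄ : ℚ) * s ^ 2 + (W.b₂ : ℚ) * s * m + 3 * (W.b₆ : ℚ) * s
        - 10 * m ^ 2 + 2 * (W.b₄ : ℚ) * m + 2 * (W.b₈ : ℚ) : ℚ) : AlgebraicClosure ℚ) = 0 := by
      push_cast
      rw [hs, hm]
      linear_combination e1 + e2
    exact_mod_cast this
  · intro x0 h3 h0
    have h3' : ((3 * x0 ^ 4 + (W.b₂ : ℚ) * x0 ^ 3 + 3 * (W.b₄ : ℚ) * x0 ^ 2 +
        3 * (W.b₆ : ℚ) * x0 + (W.b₈ : ℚ) : ℚ) : AlgebraicClosure ℚ) = 0 := by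
      rw [h3, Rat.cast_zero]
    have h0' : ((x0 ^ 2 - s * x0 + m : ℚ) : AlgebraicClosure ℚ) = 0 := by rw [h0, Rat.cast_zero]
    push_cast at h3' h0'
    rw [hs, hm] at h0'
    have : ((x0 : AlgebraicClosure ℚ) - x1) * (x0 - x2) = 0 := by linear_combination h0'
    rcases mul_eq_zero.mp this with h1 | h1
    · rw [sub_eq_zero] at h1
      rw [h1] at h3'
      apply hne'
      apply mul_right_cancel₀ hf1
      linear_combination h3' - e1
    · rw [sub_eq_zero] at h1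
      rw [h1] at h3'
      apply hne'
      apply mul_right_cancel₀ hf2
      linear_combination e2 - h3'

end Final

end Fermat.Agent.S51
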