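import Mathlib

set_option autoImplicit false

namespace Fermat.Agent.S51

/-- the statement of the descent theorem, used as a hypothesis here -/
def DescProp : Prop :=
  ∀ a w : ℚ, w ^ 2 = (a ^ 2 - 1) * (a ^ 2 - 81) → a = 0 ∨ a ^ 2 = 1 ∨ a ^ 2 = 81

/-- the stronger form of the descent theorem -/
def ThmD : Prop := ∀ x y : ℚ, y ^ 2 = x * (x - 1) * (x - 81) → y = 0

lemma ThmD.descProp (h : ThmD) : DescProp := by
  intro a w hw
  have h1 := h (a ^ 2) (a * w) (by rw [mul_pow, hw]; ring)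
  rcases mul_eq_zero.mp h1 with h1 | h1
  · exact Or.inl h1
  · rw [h1] at hw
    have h2 : (a ^ 2 - 1) * (a ^ 2 - 81) = 0 := by rw [← hw]; ring
    rcases mul_eq_zero.mp h2 with h2 | h2
    · right; left; linarith
    · right; right; linarith

/-- The quadratic relation between `n` and `w`. -/
lemma quad_rel {w n G : ℚ}
    (hG : G ^ 2 = (4 * w ^ 2 + 1) * (4 * n + 1))
    (hR : G * (n + 1) + 2 * w * (3 * n + 1) + 3 * n ^ 2 = 0) :
    -16 * n ^ 3 * w ^ 2 + 12 * n ^ 2 * (3 * n + 1) * w + 9 * n ^ 4 - 4 * n ^ 3 - 9 * n ^ 2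
      - 6 * n - 1 = 0 := by
  have h1 : G * (n + 1) = -(2 * w * (3 * n + 1) + 3 * n ^ 2) := by linarith
  have h2 : (G * (n + 1)) ^ 2 = (2 * w * (3 * n + 1) + 3 * n ^ 2) ^ 2 := by rw [h1]; ring
  have h3 : (G * (n + 1)) ^ 2 = (4 * w ^ 2 + 1) * (4 * n + 1) * (n + 1) ^ 2 := by
    rw [mul_pow, hG]
  nlinarith [h2, h3]

lemma aux_div (e a N M : ℚ) (he : e ≠ 0) (ha : a ≠ 0) (h : N ^ 2 = M * a ^ 2 * e) :
    (N / (a * e)) ^ 2 = M / e := by
  field_simp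
  linear_combination h

lemma w_cases (hD : DescProp) {w n G : ℚ}
    (hG : G ^ 2 = (4 * w ^ 2 + 1) * (4 * n + 1))
    (hR : G * (n + 1) + 2 * w * (3 * n + 1) + 3 * n ^ 2 = 0) :
    w = 11 / 4 ∨ w = 1 / 4 ∨ w = -29 / 4 ∨ w = 63 / 32 ∨ w = -3 / 8 := by
  have hQ := quad_rel hG hR
  have hn0 : n ≠ 0 := by
    rintro rfl
    norm_num at hQ
  have hn1 : n + 1 ≠ 0 := by
    intro h
    have hn : n = -1 := by linarith
    subst hn
    nlinarith [sq_nonneg G, sq_nonneg w]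
  have hY : (n * (-8 * n * w + 9 * n + 3)) ^ 2 = n * (9 * n - 4) * (4 * n + 1) * (n + 1) ^ 2 := by
    linear_combination (-4 * n) * hQ
  by_cases h9 : 9 * n - 4 = 0
  · have hn : n = 4 / 9 := by linarith
    subst hn
    have : (96 * w - 189) ^ 2 = 0 := by linear_combination (-6561) * hQ
    have : 96 * w - 189 = 0 := by simpa using this
    right; right; right; left; linarith
  · obtain ⟨e, he⟩ : ∃ e, e = 9 * n - 4 := ⟨_, rfl⟩
    have he0 : e ≠ 0 := he ▸ h9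
    have ha2 : (9 * (n * (-8 * n * w + 9 * n + 3)) / ((n + 1) * e)) ^ 2
        = 81 * n * (4 * n + 1) / e := by
      apply aux_div _ _ _ _ he0 hn1
      rw [he]
      linear_combination 81 * hY
    have h1 : 81 * n * (4 * n + 1) / e - 1 = 4 * (9 * n + 1) ^ 2 / e := by
      field_simp
      rw [he]; ring
    have h81 : 81 * n * (4 * n + 1) / e - 81 = 324 * (n - 1) ^ 2 / e := by
      field_simp
      rw [he]; ring
    have hy := hD (9 * (n * (-8 * n * w + 9 * n + 3)) / ((n + 1) * e))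
      (36 * (9 * n + 1) * (n - 1) / e)
      (by
        rw [ha2, h1, h81]
        field_simp
        ring)
    rcases hy with hy | hy | hy
    · -- Y' = 0
      have h : n * (-8 * n * w + 9 * n + 3) = 0 := by
        rw [div_eq_zero_iff] at hy
        rcases hy with hy | hy
        · linarith
        · exact absurd hy (mul_ne_zero hn1 he0)
      rw [h] at hY
      have h4 : n * (9 * n - 4) * (4 * n + 1) * (n + 1) ^ 2 = 0 := by
        rw [← hY]; ring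
      have h5 : 4 * n + 1 = 0 := by
        rcases mul_eq_zero.mp h4 with h4 | h4
        · rcases mul_eq_zero.mp h4 with h4 | h4
          · rcases mul_eq_zero.mp h4 with h4 | h4
            · exact absurd h4 hn0
            · exact absurd h4 h9
          · exact h4
        · exact absurd (pow_eq_zero_iff (two_ne_zero) |>.mp h4) hn1
      have hn : n = -1 / 4 := by linarith
      subst hn
      rcases mul_eq_zero.mp h with h | h
      · norm_num at h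
      · right; right; right; right; linarith
    · rw [ha2] at hy
      have h2 : 4 * (9 * n + 1) ^ 2 / e = 0 := by rw [← h1, hy]; ring
      have h3 : 9 * n + 1 = 0 := by
        rw [div_eq_zero_iff] at h2
        rcases h2 with h2 | h2
        · have : (9 * n + 1) ^ 2 = 0 := by linarith
          simpa using this
        · exact absurd h2 he0
      have hn : n = -1 / 9 := by linarith
      subst hn
      have : (4 * w - 11) * (4 * w + 29) = 0 := by linear_combination 729 * hQ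
      rcases mul_eq_zero.mp this with h | h
      · left; linarith
      · right; right; left; linarith
    · rw [ha2] at hy
      have h2 : 324 * (n - 1) ^ 2 / e = 0 := by rw [← h81, hy]; ring
      have h3 : n - 1 = 0 := by
        rw [div_eq_zero_iff] at h2
        rcases h2 with h2 | h2
        · have : (n - 1) ^ 2 = 0 := by linarith
          simpa using this
        · exact absurd h2 he0
      have hn : n = 1 := by linarith
      subst hn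
      have : (4 * w - 11) * (4 * w - 1) = 0 := by linear_combination (-1) * hQ
      rcases mul_eq_zero.mp this with h | h
      · left; linarith
      · right; left; linarith

/-- The parametrisation of the pair (curve, 5-isogeny) and the `X₀(15)` relations. -/
lemma param {A B x0 p q : ℚ} (hd : p ^ 2 - 4 * q ≠ 0)
    (R1 : 4 * B = p ^ 3 - 6 * p * q - 2 * A * p)
    (R2 : A ^ 2 + 2 * A * (p ^ 2 - q) - p ^ 4 + 5 * p ^ 2 * q + 5 * q ^ 2 = 0)
    (h3 : 3 * x0 ^ 4 + 6 * A * x0 ^ 2 + 12 * B * x0 - A ^ 2 = 0) :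
    ∃ d w n G : ℚ, d ≠ 0 ∧ G ^ 2 = (4 * w ^ 2 + 1) * (4 * n + 1) ∧
      G * (n + 1) + 2 * w * (3 * n + 1) + 3 * n ^ 2 = 0 ∧
      -48 * A = d * ((4 * w - 11) ^ 2 + 10 * (4 * w - 11) + 5) ∧
      -16 * (4 * A ^ 3 + 27 * B ^ 2) = d ^ 3 * (4 * w - 11) := by
  obtain ⟨d, hdd⟩ : ∃ d, d = p ^ 2 - 4 * q := ⟨_, rfl⟩
  have hd0 : d ≠ 0 := hdd ▸ hd
  have hq : q = (p ^ 2 - d) / 4 := by rw [hdd]; ring
  subst hq
  obtain ⟨w, hw⟩ : ∃ w, w = (A + p ^ 2 - (p ^ 2 - d) / 4) / d := ⟨_, rfl⟩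
  have hA : A = w * d - p ^ 2 + (p ^ 2 - d) / 4 := by
    rw [hw]; field_simp; ring
  subst hA
  have hB : B = (p ^ 3 - 6 * p * ((p ^ 2 - d) / 4)
      - 2 * (w * d - p ^ 2 + (p ^ 2 - d) / 4) * p) / 4 := by linarith
  subst hB
  have hp : 9 * p ^ 2 = d * (4 * w ^ 2 + 1) := by
    have : d * (9 * p ^ 2 - d * (4 * w ^ 2 + 1)) = 0 := by linear_combination (-4) * R2
    rcases mul_eq_zero.mp this with h | h
    · exact absurd h hd0
    · linarith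
  refine ⟨d, w, (x0 ^ 2 - p * x0 + (p ^ 2 - d) / 4) / d, 3 * p * (2 * x0 - p) / d, hd0, ?_, ?_, ?_, ?_⟩
  · field_simp
    linear_combination ((2 * x0 - p) ^ 2) * hp
  · have h : 3 * p * (2 * x0 - p) * ((x0 ^ 2 - p * x0 + (p ^ 2 - d) / 4) + d)
        + 2 * w * d * (3 * (x0 ^ 2 - p * x0 + (p ^ 2 - d) / 4) + d)
        + 3 * (x0 ^ 2 - p * x0 + (p ^ 2 - d) / 4) ^ 2 = 0 := by
      linear_combination h3 + (-(1 / 4) * d) * hp
    field_simp
    field_simp at h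
    linear_combination h
  · linear_combination 4 * hp
  · linear_combination (-9 * p ^ 2 * d + 16 * d ^ 2 * w - 12 * d ^ 2) * hp

lemma prime_five_int : Prime (5 : ℤ) := Int.prime_iff_natAbs_prime.mpr (by norm_num)

lemma fin_aux {c4 Δ a b : ℤ} (ha : ¬ (5 : ℤ) ∣ a) (hb : ¬ (5 : ℤ) ∣ b)
    (h : a * c4 ^ 3 = 5 * b * Δ ∨ a * c4 ^ 3 = 25 * b * Δ)
    (h5 : (5 : ℤ) ∣ Δ → ¬ (5 : ℤ) ∣ c4) : False := by
  have h1 : (5 : ℤ) ∣ a * c4 ^ 3 := by
    rcases h with h | h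
    · exact ⟨b * Δ, by rw [h]; ring⟩
    · exact ⟨5 * b * Δ, by rw [h]; ring⟩
  have h2 : (5 : ℤ) ∣ c4 :=
    prime_five_int.dvd_of_dvd_pow ((prime_five_int.dvd_or_dvd h1).resolve_left ha)
  obtain ⟨k, rfl⟩ := h2
  have h3 : (5 : ℤ) ∣ b * Δ := by
    rcases h with h | h
    · exact ⟨5 * a * k ^ 3, by linarith⟩
    · exact ⟨a * k ^ 3, by linarith⟩
  exact h5 ((prime_five_int.dvd_or_dvd h3).resolve_left hb) (dvd_mul_right 5 k)

lemma fin {c4 Δ : ℤ} (hΔ : Δ ≠ 0) (h5 : (5 : ℤ) ∣ Δ → ¬ (5 : ℤ) ∣ c4) {d w : ℚ}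
    (hc : (c4 : ℚ) = d * ((4 * w - 11) ^ 2 + 10 * (4 * w - 11) + 5))
    (hD : (Δ : ℚ) = d ^ 3 * (4 * w - 11))
    (hw : w = 11 / 4 ∨ w = 1 / 4 ∨ w = -29 / 4 ∨ w = 63 / 32 ∨ w = -3 / 8) : False := by
  rcases hw with rfl | rfl | rfl | rfl | rfl
  · apply hΔ
    have : (Δ : ℚ) = 0 := by rw [hD]; ring
    exact_mod_cast this
  · have h : ((-2 : ℤ) * c4 ^ 3 : ℚ) = ((25 * 1 * Δ : ℤ) : ℚ) := by
      push_cast; rw [hc, hD]; ring
    have h' : (-2 : ℤ) * c4 ^ 3 = 25 * 1 * Δ := by exact_mod_cast h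
    exact fin_aux (by norm_num) (by norm_num) (Or.inr h') h5
  · have h : ((-8 : ℤ) * c4 ^ 3 : ℚ) = ((25 * 241 ^ 3 * Δ : ℤ) : ℚ) := by
      push_cast; rw [hc, hD]; ring
    have h' : (-8 : ℤ) * c4 ^ 3 = 25 * 241 ^ 3 * Δ := by exact_mod_cast h
    exact fin_aux (by norm_num) (by norm_num) (Or.inr h') h5
  · have h : ((32768 : ℤ) * c4 ^ 3 : ℚ) = ((5 * 211 ^ 3 * Δ : ℤ) : ℚ) := by
      push_cast; rw [hc, hD]; ring
    have h' : (32768 : ℤ) * c4 ^ 3 = 5 * 211 ^ 3 * Δ := by exact_mod_cast h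
    exact fin_aux (by norm_num) (by norm_num) (Or.inl h') h5
  · have h : ((-32 : ℤ) * c4 ^ 3 : ℚ) = ((5 * 29 ^ 3 * Δ : ℤ) : ℚ) := by
      push_cast; rw [hc, hD]; ring
    have h' : (-32 : ℤ) * c4 ^ 3 = 5 * 29 ^ 3 * Δ := by exact_mod_cast h
    exact fin_aux (by norm_num) (by norm_num) (Or.inl h') h5

/-- The core contradiction in short Weierstrass coordinates. -/
theorem core_false (hD : DescProp) {c4 Δ : ℤ} (hΔ : Δ ≠ 0) (h5 : (5 : ℤ) ∣ Δ → ¬ (5 : ℤ) ∣ c4)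
    {A B x0 p q : ℚ} (hA : -48 * A = c4) (hAB : -16 * (4 * A ^ 3 + 27 * B ^ 2) = Δ)
    (hd : p ^ 2 - 4 * q ≠ 0)
    (R1 : 4 * B = p ^ 3 - 6 * p * q - 2 * A * p)
    (R2 : A ^ 2 + 2 * A * (p ^ 2 - q) - p ^ 4 + 5 * p ^ 2 * q + 5 * q ^ 2 = 0)
    (h3 : 3 * x0 ^ 4 + 6 * A * x0 ^ 2 + 12 * B * x0 - A ^ 2 = 0) : False := by
  obtain ⟨d, w, n, G, -, hG, hR, h1, h2⟩ := param hd R1 R2 h3
  exact fin hΔ h5 (hA ▸ h1) (hAB ▸ h2) (w_cases hD hG hR)

/-- The contradiction in terms of the `b`-invariants, all data rational. -/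
theorem core_false_b (hD : DescProp) {c4 Δ : ℤ} (hΔ : Δ ≠ 0) (h5 : (5 : ℤ) ∣ Δ → ¬ (5 : ℤ) ∣ c4)
    {b2 b4 b6 b8 x0 s m : ℚ} (hb8 : 4 * b8 = b2 * b6 - b4 ^ 2)
    (hc4 : (c4 : ℚ) = b2 ^ 2 - 24 * b4)
    (hΔb : (Δ : ℚ) = -b2 ^ 2 * b8 - 8 * b4 ^ 3 - 27 * b6 ^ 2 + 9 * b2 * b4 * b6)
    (hd : s ^ 2 - 4 * m ≠ 0)
    (R1 : s ^ 3 - 6 * m * s - b2 * m - b4 * s - b6 = 0)
    (R2 : 4 * m * (s ^ 2 - 2 * m) + b2 * m * s + 4 * b4 * m + b6 * s
      = (s ^ 2 - 2 * m) ^ 2 - 2 * m ^ 2 - b4 * (s ^ 2 - 2 * m) - 2 * b6 * s - 2 * b8)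
    (h3 : 3 * x0 ^ 4 + b2 * x0 ^ 3 + 3 * b4 * x0 ^ 2 + 3 * b6 * x0 + b8 = 0) : False := by
  refine core_false hD hΔ h5 (A := -(b2 ^ 2 - 24 * b4) / 48)
    (B := (b2 ^ 3 - 36 * b2 * b4 + 216 * b6) / 864) (x0 := x0 + b2 / 12) (p := s + b2 / 6)
    (q := m + b2 * s / 12 + b2 ^ 2 / 144) ?_ ?_ ?_ ?_ ?_ ?_
  · rw [hc4]; ring
  · rw [hΔb]; linear_combination (b2 ^ 2 / 4) * hb8
  · intro h; apply hd; linear_combination h
  · linear_combination (-1) * R1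
  · linear_combination (-1 / 2) * R2 + (1 / 4) * hb8 + (-(3 / 2) * s - b2 / 4) * R1
  · linear_combination h3 - (1 / 4) * hb8

/-- The contradiction, with the `5`-torsion data in an extension field `K`. -/
theorem core_false_K (hD : DescProp) {c4 Δ : ℤ} (hΔ : Δ ≠ 0) (h5 : (5 : ℤ) ∣ Δ → ¬ (5 : ℤ) ∣ c4)
    {b2 b4 b6 b8 x0 : ℚ} (hb8 : 4 * b8 = b2 * b6 - b4 ^ 2)
    (hc4 : (c4 : ℚ) = b2 ^ 2 - 24 * b4)
    (hΔb : (Δ : ℚ) = -b2 ^ 2 * b8 - 8 * b4 ^ 3 - 27 * b6 ^ 2 + 9 * b2 * b4 * b6)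
    (h3 : 3 * x0 ^ 4 + b2 * x0 ^ 3 + 3 * b4 * x0 ^ 2 + 3 * b6 * x0 + b8 = 0)
    {K : Type*} [Field K] [Algebra ℚ K] {x1 x2 : K} (hne : x1 ≠ x2)
    (hs : ∃ s : ℚ, x1 + x2 = algebraMap ℚ K s) (hm : ∃ m : ℚ, x1 * x2 = algebraMap ℚ K m)
    (h12 : x2 * (4 * x1 ^ 3 + algebraMap ℚ K b2 * x1 ^ 2 + 2 * algebraMap ℚ K b4 * x1
        + algebraMap ℚ K b6)
      = x1 ^ 4 - algebraMap ℚ K b4 * x1 ^ 2 - 2 * algebraMap ℚ K b6 * x1 - algebraMap ℚ K b8)
    (h21 : x1 * (4 * x2 ^ 3 + algebraMap ℚ K b2 * x2 ^ 2 + 2 * algebraMap ℚ K b4 * x2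
        + algebraMap ℚ K b6)
      = x2 ^ 4 - algebraMap ℚ K b4 * x2 ^ 2 - 2 * algebraMap ℚ K b6 * x2 - algebraMap ℚ K b8) :
    False := by
  obtain ⟨s, hs⟩ := hs
  obtain ⟨m, hm⟩ := hm
  have hinj : Function.Injective (algebraMap ℚ K) := (algebraMap ℚ K).injective
  have hsub : x1 - x2 ≠ 0 := sub_ne_zero.mpr hne
  refine core_false_b hD hΔ h5 hb8 hc4 hΔb (s := s) (m := m) ?_ ?_ ?_ h3
  · intro h
    apply hsub
    have h' : algebraMap ℚ K (s ^ 2 - 4 * m) = 0 := by rw [h, map_zero]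
    have h2 : (x1 - x2) ^ 2 = 0 := by
      have : (x1 - x2) ^ 2 = (x1 + x2) ^ 2 - 4 * (x1 * x2) := by ring
      rw [this, hs, hm]
      simpa [map_sub, map_mul, map_pow] using h'
    simpa using h2
  · apply hinj
    have e1 : (x1 - x2) * ((x1 + x2) ^ 3 - 6 * (x1 * x2) * (x1 + x2) - algebraMap ℚ K b2 * (x1 * x2)
        - algebraMap ℚ K b4 * (x1 + x2) - algebraMap ℚ K b6) = 0 := by
      linear_combination h21 - h12
    have e2 := (mul_eq_zero.mp e1).resolve_left hsub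
    rw [hs, hm] at e2
    simpa [map_sub, map_mul, map_pow] using e2
  · apply hinj
    have e1 : 4 * (x1 * x2) * ((x1 + x2) ^ 2 - 2 * (x1 * x2))
        + algebraMap ℚ K b2 * (x1 * x2) * (x1 + x2) + 4 * algebraMap ℚ K b4 * (x1 * x2)
        + algebraMap ℚ K b6 * (x1 + x2)
        = ((x1 + x2) ^ 2 - 2 * (x1 * x2)) ^ 2 - 2 * (x1 * x2) ^ 2
          - algebraMap ℚ K b4 * ((x1 + x2) ^ 2 - 2 * (x1 * x2))
          - 2 * algebraMap ℚ K b6 * (x1 + x2) - 2 * algebraMap ℚ K b8 := by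
      linear_combination h12 + h21
    rw [hs, hm] at e1
    simpa [map_sub, map_add, map_mul, map_pow] using e1

end Fermat.Agent.S51
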