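import Mathlib

set_option autoImplicit false

namespace Fermat.Agent.S51

/-- A positive factor of a square, coprime to its cofactor, is a square. -/
lemma sq_of_coprime_pos {a b c : ℤ} (ha : 0 < a) (h : IsCoprime a b) (hc : a * b = c ^ 2) :
    ∃ x : ℤ, a = x ^ 2 := by
  obtain ⟨x, hx | hx⟩ := Int.sq_of_isCoprime h hc
  · exact ⟨x, hx⟩
  · exfalso; nlinarith [sq_nonneg x]

/-- If `a * b` is a square with `a, b > 0` then `a = gcd a b * x ^ 2`. -/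
lemma exists_gcd_mul_sq {a b c : ℤ} (ha : 0 < a) (hc : a * b = c ^ 2) :
    ∃ x : ℤ, a = (Int.gcd a b : ℤ) * x ^ 2 := by
  have hg : 0 < Int.gcd a b := Int.gcd_pos_of_ne_zero_left _ ha.ne'
  obtain ⟨a1, b1, h1, ha1, hb1⟩ := Int.exists_gcd_one hg
  set g : ℤ := (Int.gcd a b : ℤ) with hgdef
  have hg' : 0 < g := Int.natCast_pos.2 hg
  have hdvd : g ∣ c := by
    have : g ^ 2 ∣ c ^ 2 := ⟨a1 * b1, by rw [← hc]; nth_rewrite 1 [ha1]; nth_rewrite 1 [hb1]; ring⟩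
    exact (Int.pow_dvd_pow_iff (by norm_num)).1 this
  obtain ⟨c1, rfl⟩ := hdvd
  have h2 : a1 * b1 = c1 ^ 2 := by
    have h3 : g ^ 2 * (a1 * b1) = g ^ 2 * c1 ^ 2 := by
      have : a * b = g ^ 2 * (a1 * b1) := by
        nth_rewrite 1 [ha1]; nth_rewrite 1 [hb1]; ring
      rw [← this, hc]; ring
    exact mul_left_cancel₀ (pow_ne_zero 2 hg'.ne') h3
  have ha1pos : 0 < a1 := by
    by_contra hneg
    have hneg := not_lt.1 hneg
    have : a ≤ 0 := by rw [ha1]; exact mul_nonpos_of_nonpos_of_nonneg hneg hg'.le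
    omega
  obtain ⟨x, hx⟩ := sq_of_coprime_pos ha1pos (Int.isCoprime_iff_gcd_eq_one.2 h1) h2
  exact ⟨x, by rw [ha1, hx]; ring⟩


lemma three_dvd_of_sq_add_sq {a b : ℤ} (h : (3 : ℤ) ∣ a ^ 2 + b ^ 2) :
    (3 : ℤ) ∣ a ∧ (3 : ℤ) ∣ b := by
  have h1 : ((a ^ 2 + b ^ 2 : ℤ) : ZMod 3) = 0 := (ZMod.intCast_zmod_eq_zero_iff_dvd _ 3).2 h
  push_cast at h1
  have key : ∀ x y : ZMod 3, x ^ 2 + y ^ 2 = 0 → x = 0 ∧ y = 0 := by decide
  obtain ⟨hx, hy⟩ := key _ _ h1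
  exact ⟨(ZMod.intCast_zmod_eq_zero_iff_dvd _ 3).1 hx, (ZMod.intCast_zmod_eq_zero_iff_dvd _ 3).1 hy⟩

lemma no_sq_sub_ten {x y e : ℤ} (he : Odd e) (h : x ^ 2 - 10 * e ^ 2 = y ^ 2) : False := by
  obtain ⟨k, rfl⟩ := he
  have h1 := congrArg (Int.cast : ℤ → ZMod 4) h
  push_cast at h1
  have key : ∀ x y k : ZMod 4, x ^ 2 - 10 * (2 * k + 1) ^ 2 ≠ y ^ 2 := by decide
  exact key _ _ _ h1

lemma no_sq_sub_two {x y e : ℤ} (he : Odd e) (h : x ^ 2 - 2 * e ^ 2 = y ^ 2) : False := by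
  obtain ⟨k, rfl⟩ := he
  have h1 := congrArg (Int.cast : ℤ → ZMod 4) h
  push_cast at h1
  have key : ∀ x y k : ZMod 4, x ^ 2 - 2 * (2 * k + 1) ^ 2 ≠ y ^ 2 := by decide
  exact key _ _ _ h1

/-- a natural number dividing `81` is a square or three times a square -/
lemma sqclass_of_dvd_81 {g : ℕ} (h : g ∣ 81) : ∃ t : ℤ, (g : ℤ) = t ^ 2 ∨ (g : ℤ) = 3 * t ^ 2 := by
  have hmem : g ∈ Nat.divisors 81 := Nat.mem_divisors.2 ⟨h, by norm_num⟩
  have hd : Nat.divisors 81 = {1, 3, 9, 27, 81} := by decide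
  rw [hd] at hmem
  simp only [Finset.mem_insert, Finset.mem_singleton] at hmem
  rcases hmem with rfl | rfl | rfl | rfl | rfl
  · exact ⟨1, Or.inl (by norm_num)⟩
  · exact ⟨1, Or.inr (by norm_num)⟩
  · exact ⟨3, Or.inl (by norm_num)⟩
  · exact ⟨3, Or.inr (by norm_num)⟩
  · exact ⟨9, Or.inl (by norm_num)⟩

/-- a natural number dividing `80` is `1, 2, 5, 10` times a square -/
lemma sqclass_of_dvd_80 {g : ℕ} (h : g ∣ 80) :
    ∃ t : ℤ, (g : ℤ) = t ^ 2 ∨ (g : ℤ) = 2 * t ^ 2 ∨ (g : ℤ) = 5 * t ^ 2 ∨ (g : ℤ) = 10 * t ^ 2 := by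
  have hmem : g ∈ Nat.divisors 80 := Nat.mem_divisors.2 ⟨h, by norm_num⟩
  have hd : Nat.divisors 80 = {1, 2, 4, 5, 8, 10, 16, 20, 40, 80} := by decide
  rw [hd] at hmem
  simp only [Finset.mem_insert, Finset.mem_singleton] at hmem
  rcases hmem with rfl | rfl | rfl | rfl | rfl | rfl | rfl | rfl | rfl | rfl
  · exact ⟨1, Or.inl (by norm_num)⟩
  · exact ⟨1, Or.inr (Or.inl (by norm_num))⟩
  · exact ⟨2, Or.inl (by norm_num)⟩
  · exact ⟨1, Or.inr (Or.inr (Or.inl (by norm_num)))⟩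
  · exact ⟨2, Or.inr (Or.inl (by norm_num))⟩
  · exact ⟨1, Or.inr (Or.inr (Or.inr (by norm_num)))⟩
  · exact ⟨4, Or.inl (by norm_num)⟩
  · exact ⟨2, Or.inr (Or.inr (Or.inl (by norm_num)))⟩
  · exact ⟨2, Or.inr (Or.inr (Or.inr (by norm_num)))⟩
  · exact ⟨4, Or.inr (Or.inr (Or.inl (by norm_num)))⟩


lemma exists_sq_of_mul_sq {d w A N1 : ℤ} (hA : A ≠ 0) (h : d * A ^ 2 * w = N1 ^ 2) :
    ∃ L0 : ℤ, d * w = L0 ^ 2 := by
  have h1 : A ^ 2 ∣ N1 ^ 2 := ⟨d * w, by rw [← h]; ring⟩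
  obtain ⟨L0, rfl⟩ := (Int.pow_dvd_pow_iff (by norm_num)).1 h1
  refine ⟨L0, ?_⟩
  have h2 : A ^ 2 * (d * w) = A ^ 2 * L0 ^ 2 := by linear_combination h
  exact mul_left_cancel₀ (pow_ne_zero 2 hA) h2

lemma three_dvd_of_dvd_sq {a : ℤ} (h : (3 : ℤ) ∣ a ^ 2) : (3 : ℤ) ∣ a :=
  Int.Prime.dvd_pow' Nat.prime_three (by exact_mod_cast h)

/-- exclusion of the Selmer classes with `d₁ = 3` -/
lemma excl_three {M e K L0 d2 : ℤ} (hd2 : d2 = 1 ∨ d2 = 2 ∨ d2 = 5 ∨ d2 = 10)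
    (he3 : ¬ (3 : ℤ) ∣ e) (h1 : 3 * M ^ 2 - e ^ 2 = d2 * K ^ 2)
    (h2 : 3 * d2 * (3 * M ^ 2 - 81 * e ^ 2) = L0 ^ 2) : False := by
  have hA : ∀ c : ℤ, d2 - 1 = 3 * c → False := by
    intro c hc
    have : (3 : ℤ) ∣ e ^ 2 + K ^ 2 := ⟨M ^ 2 - c * K ^ 2, by linear_combination (-1 : ℤ) * h1 - K ^ 2 * hc⟩
    exact he3 (three_dvd_of_sq_add_sq this).1
  have hB : ∀ c : ℤ, d2 + 1 = 3 * c → ¬ (3 : ℤ) ∣ d2 → False := by
    intro c hc hd
    have h3 : (3 : ℤ) ∣ L0 := three_dvd_of_dvd_sq ⟨3 * d2 * (M ^ 2 - 27 * e ^ 2), by rw [← h2]; ring⟩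
    obtain ⟨L1, rfl⟩ := h3
    have h4 : d2 * (M ^ 2 - 27 * e ^ 2) = L1 ^ 2 := by linarith
    have h5 : (3 : ℤ) ∣ M ^ 2 + L1 ^ 2 :=
      ⟨c * M ^ 2 - 9 * d2 * e ^ 2, by linear_combination (-1 : ℤ) * h4 + M ^ 2 * hc⟩
    obtain ⟨⟨M1, rfl⟩, ⟨L2, rfl⟩⟩ := three_dvd_of_sq_add_sq h5
    have h6 : d2 * (M1 ^ 2 - 3 * e ^ 2) = L2 ^ 2 := by linarith
    have h7 : (3 : ℤ) ∣ M1 ^ 2 + L2 ^ 2 :=
      ⟨c * M1 ^ 2 - d2 * e ^ 2, by linear_combination (-1 : ℤ) * h6 + M1 ^ 2 * hc⟩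
    obtain ⟨⟨M2, rfl⟩, ⟨L3, rfl⟩⟩ := three_dvd_of_sq_add_sq h7
    have h8 : d2 * (3 * M2 ^ 2 - e ^ 2) = 3 * L3 ^ 2 := by linarith
    have h9 : (3 : ℤ) ∣ d2 * e ^ 2 := ⟨d2 * M2 ^ 2 - L3 ^ 2, by linear_combination (-1 : ℤ) * h8⟩
    rcases (Int.prime_three).dvd_or_dvd h9 with h | h
    · exact hd h
    · exact he3 (three_dvd_of_dvd_sq h)
  rcases hd2 with rfl | rfl | rfl | rfl
  · exact hA 0 (by norm_num)
  · exact hB 1 (by norm_num) (by norm_num)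
  · exact hB 2 (by norm_num) (by norm_num)
  · exact hA 3 (by norm_num)

/-- exclusion of the Selmer classes with `2 ∣ d₂` -/
lemma excl_two {M e K L0 δ : ℤ} (hδ : δ = 1 ∨ δ = 5) (hM : Odd M) (he : Odd e)
    (h1 : M ^ 2 - e ^ 2 = 2 * δ * K ^ 2) (h2 : 2 * δ * (M ^ 2 - 81 * e ^ 2) = L0 ^ 2) : False := by
  have hK : Even K := by
    rcases Int.even_or_odd K with hK | hK
    · exact hK
    · exfalso
      obtain ⟨a, rfl⟩ := hM
      obtain ⟨b, rfl⟩ := he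
      obtain ⟨c, rfl⟩ := hK
      have h3 := congrArg (Int.cast : ℤ → ZMod 8) h1
      push_cast at h3
      rcases hδ with rfl | rfl
      · have key : ∀ a b c : ZMod 8,
            (2 * a + 1) ^ 2 - (2 * b + 1) ^ 2 ≠ 2 * ((1 : ℤ) : ZMod 8) * (2 * c + 1) ^ 2 := by decide
        exact key _ _ _ h3
      · have key : ∀ a b c : ZMod 8,
            (2 * a + 1) ^ 2 - (2 * b + 1) ^ 2 ≠ 2 * ((5 : ℤ) : ZMod 8) * (2 * c + 1) ^ 2 := by decide
        exact key _ _ _ h3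
  obtain ⟨K1, rfl⟩ := hK
  have h3 : (4 : ℤ) ∣ L0 := by
    have : (4 : ℤ) ^ 2 ∣ L0 ^ 2 := ⟨δ * (δ * K1 ^ 2 - 10 * e ^ 2), by
      rw [← h2]; linear_combination 2 * δ * h1⟩
    exact (Int.pow_dvd_pow_iff (by norm_num)).1 this
  obtain ⟨L1, rfl⟩ := h3
  have h4 : δ * (δ * K1 ^ 2 - 10 * e ^ 2) = L1 ^ 2 := by
    have : 16 * (δ * (δ * K1 ^ 2 - 10 * e ^ 2)) = 16 * L1 ^ 2 := by
      linear_combination h2 - 2 * δ * h1
    linarith
  rcases hδ with rfl | rfl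
  · exact no_sq_sub_ten he (x := K1) (y := L1) (by linarith)
  · have h5 : (5 : ℤ) ∣ L1 := by
      have : (5 : ℤ) ^ 2 ∣ L1 ^ 2 := ⟨K1 ^ 2 - 2 * e ^ 2, by rw [← h4]; ring⟩
      exact (Int.pow_dvd_pow_iff (by norm_num)).1 this
    obtain ⟨L2, rfl⟩ := h5
    exact no_sq_sub_two he (x := K1) (y := L2) (by linarith)


/-- The 2-Selmer computation for `Y² = X (X - 1) (X - 81)` on the component `X > 81`. -/
lemma selmer_int (m n N : ℤ) (hn : 0 < n) (hm : 81 * n < m) (hcop : IsCoprime m n)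
    (hN : N ^ 2 = m * n * (m - n) * (m - 81 * n)) :
    ∃ M e K L : ℤ, n = e ^ 2 ∧ m = M ^ 2 ∧
      ((m - n = K ^ 2 ∧ m - 81 * n = L ^ 2) ∨
        (m - n = 5 * K ^ 2 ∧ m - 81 * n = 5 * L ^ 2)) := by
  obtain ⟨a, b, hab⟩ := hcop
  obtain ⟨u, hu⟩ : ∃ u, u = m - n := ⟨_, rfl⟩
  obtain ⟨w, hw⟩ : ∃ w, w = m - 81 * n := ⟨_, rfl⟩
  rw [← hu, ← hw] at hN ⊢
  have hmpos : 0 < m := by linarith
  have hupos : 0 < u := by linarith
  have hwpos : 0 < w := by linarith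
  have cnm : IsCoprime n m := ⟨b, a, by linarith⟩
  have cnu : IsCoprime n u := ⟨a + b, a, by rw [hu]; linear_combination hab⟩
  have cnw : IsCoprime n w := ⟨81 * a + b, a, by rw [hw]; linear_combination hab⟩
  have cmu : IsCoprime m u := ⟨a + b, -b, by rw [hu]; linear_combination hab⟩
  have c1 : IsCoprime n (m * u * w) := (cnm.mul_right cnu).mul_right cnw
  have e1 : n * (m * u * w) = N ^ 2 := by rw [hN]; ring
  obtain ⟨e, he⟩ := sq_of_coprime_pos hn c1 e1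
  obtain ⟨N1, hN1⟩ := sq_of_coprime_pos (a := m * u * w) (by positivity) c1.symm
    (by rw [← e1]; ring)
  -- the class of `m`
  obtain ⟨x, hx⟩ := exists_gcd_mul_sq hmpos (b := u * w) (c := N1) (by rw [← hN1]; ring)
  have hg3 : Int.gcd m (u * w) ∣ 81 := by
    have h1 : ((Int.gcd m (u * w) : ℕ) : ℤ) ∣ m := Int.gcd_dvd_left ..
    have h2 : ((Int.gcd m (u * w) : ℕ) : ℤ) ∣ u * w := Int.gcd_dvd_right ..
    have h3 : ((Int.gcd m (u * w) : ℕ) : ℤ) ∣ w :=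
      (cmu.of_isCoprime_of_dvd_left h1).dvd_of_dvd_mul_left h2
    have h4 : ((Int.gcd m (u * w) : ℕ) : ℤ) ∣ 81 * n := by
      have := dvd_sub h1 h3
      rwa [show m - w = 81 * n by rw [hw]; ring] at this
    have h5 : ((Int.gcd m (u * w) : ℕ) : ℤ) ∣ 81 :=
      (cnm.symm.of_isCoprime_of_dvd_left h1).dvd_of_dvd_mul_right h4
    exact_mod_cast h5
  -- the class of `u`
  obtain ⟨y, hy⟩ := exists_gcd_mul_sq hupos (b := m * w) (c := N1) (by rw [← hN1]; ring)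
  have hg : Int.gcd u (m * w) ∣ 80 := by
    have h1 : ((Int.gcd u (m * w) : ℕ) : ℤ) ∣ u := Int.gcd_dvd_left ..
    have h2 : ((Int.gcd u (m * w) : ℕ) : ℤ) ∣ m * w := Int.gcd_dvd_right ..
    have h3 : ((Int.gcd u (m * w) : ℕ) : ℤ) ∣ w :=
      (cmu.symm.of_isCoprime_of_dvd_left h1).dvd_of_dvd_mul_left h2
    have h4 : ((Int.gcd u (m * w) : ℕ) : ℤ) ∣ 80 * n := by
      have := dvd_sub h1 h3
      rwa [show u - w = 80 * n by rw [hu, hw]; ring] at this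
    have h5 : ((Int.gcd u (m * w) : ℕ) : ℤ) ∣ 80 :=
      (cnu.symm.of_isCoprime_of_dvd_left h1).dvd_of_dvd_mul_right h4
    exact_mod_cast h5
  obtain ⟨t, ht⟩ := sqclass_of_dvd_81 hg3
  obtain ⟨s, hs⟩ := sqclass_of_dvd_80 hg
  obtain ⟨M, hM⟩ : ∃ M : ℤ, m = M ^ 2 ∨ m = 3 * M ^ 2 := by
    refine ⟨t * x, ?_⟩
    rcases ht with ht | ht
    · left; rw [hx, ht]; ring
    · right; rw [hx, ht]; ring
  obtain ⟨K, hK⟩ : ∃ K : ℤ, u = K ^ 2 ∨ u = 2 * K ^ 2 ∨ u = 5 * K ^ 2 ∨ u = 10 * K ^ 2 := by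
    refine ⟨s * y, ?_⟩
    rcases hs with hs | hs | hs | hs
    · left; rw [hy, hs]; ring
    · right; left; rw [hy, hs]; ring
    · right; right; left; rw [hy, hs]; ring
    · right; right; right; rw [hy, hs]; ring
  obtain ⟨d2, hd2, hK'⟩ : ∃ d2 : ℤ, (d2 = 1 ∨ d2 = 2 ∨ d2 = 5 ∨ d2 = 10) ∧ u = d2 * K ^ 2 := by
    rcases hK with h | h | h | h
    · exact ⟨1, by norm_num, by rw [h]; ring⟩
    · exact ⟨2, by norm_num, h⟩
    · exact ⟨5, by norm_num, h⟩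
    · exact ⟨10, by norm_num, h⟩
  have hM0 : M ≠ 0 := by
    rintro rfl
    rcases hM with h | h <;> simp at h <;> omega
  have hK0 : K ≠ 0 := by
    rintro rfl
    simp at hK'
    omega
  have hMK : M * K ≠ 0 := mul_ne_zero hM0 hK0
  rcases hM with hM | hM
  · -- `m = M ^ 2`
    obtain ⟨L0, hL0⟩ := exists_sq_of_mul_sq (d := d2) (w := w) (N1 := N1) hMK (by
      rw [← hN1, hM, hK']; ring)
    have hodd : d2 = 2 ∨ d2 = 10 → Odd M ∧ Odd e := by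
      intro h2
      have hpar : M ^ 2 - e ^ 2 = 2 * (d2 / 2) * K ^ 2 := by
        have : 2 * (d2 / 2) = d2 := by rcases h2 with rfl | rfl <;> norm_num
        rw [this, ← hK', hu, hM, he]
      rcases Int.even_or_odd M with ⟨a', ha'⟩ | hMo <;> rcases Int.even_or_odd e with ⟨b', hb'⟩ | heo
      · exfalso
        have : (2 : ℤ) ∣ 1 := ⟨a * (2 * a' ^ 2) + b * (2 * b' ^ 2), by
          rw [← hab, hM, he, ha', hb']; ring⟩
        norm_num at this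
      · exfalso
        obtain ⟨b', hb'⟩ := heo
        rw [ha', hb'] at hpar
        have h3 := congrArg (Int.cast : ℤ → ZMod 2) hpar
        push_cast at h3
        have key : ∀ a b c d : ZMod 2, (a + a) ^ 2 - (2 * b + 1) ^ 2 ≠ 2 * c * d ^ 2 := by decide
        exact key _ _ _ _ h3
      · exfalso
        obtain ⟨a', ha'⟩ := hMo
        rw [ha', hb'] at hpar
        have h3 := congrArg (Int.cast : ℤ → ZMod 2) hpar
        push_cast at h3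
        have key : ∀ a b c d : ZMod 2, (2 * a + 1) ^ 2 - (b + b) ^ 2 ≠ 2 * c * d ^ 2 := by decide
        exact key _ _ _ _ h3
      · exact ⟨hMo, heo⟩
    rcases hd2 with rfl | rfl | rfl | rfl
    · exact ⟨M, e, K, L0, he, hM, Or.inl ⟨by rw [hK']; ring, by linarith⟩⟩
    · exfalso
      obtain ⟨hMo, heo⟩ := hodd (Or.inl rfl)
      exact excl_two (δ := 1) (K := K) (L0 := L0) (Or.inl rfl) hMo heo
        (by rw [← hM, ← he, ← hu, hK']; ring) (by rw [← hL0, hw, hM, he]; ring)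
    · have h5 : (5 : ℤ) ∣ L0 :=
        Int.Prime.dvd_pow' (by norm_num : Nat.Prime 5) (by exact_mod_cast (⟨w, hL0.symm⟩ : (5 : ℤ) ∣ L0 ^ 2))
      obtain ⟨L, rfl⟩ := h5
      exact ⟨M, e, K, L, he, hM, Or.inr ⟨hK', by linarith⟩⟩
    · exfalso
      obtain ⟨hMo, heo⟩ := hodd (Or.inr rfl)
      exact excl_two (δ := 5) (K := K) (L0 := L0) (Or.inr rfl) hMo heo
        (by rw [← hM, ← he, ← hu, hK']; ring) (by rw [← hL0, hw, hM, he]; ring)
  · -- `m = 3 * M ^ 2` is impossible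
    exfalso
    obtain ⟨L0, hL0⟩ := exists_sq_of_mul_sq (d := 3 * d2) (w := w) (N1 := N1) hMK (by
      rw [← hN1, hM, hK']; ring)
    have he3 : ¬ (3 : ℤ) ∣ e := by
      rintro ⟨e', rfl⟩
      have : (3 : ℤ) ∣ 1 := ⟨a * M ^ 2 + b * (3 * e' ^ 2), by rw [← hab, hM, he]; ring⟩
      norm_num at this
    exact excl_three hd2 he3 (K := K) (L0 := L0) (M := M)
      (by rw [← hM, ← he, ← hu, hK']) (by rw [← hL0, hw, hM, he])


/-- rational points of `Y² = X (X - 1) (X - 81)` on the component `X > 81` -/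
def IsPt (X : ℚ) : Prop := 81 < X ∧ ∃ Y : ℚ, Y ^ 2 = X * (X - 1) * (X - 81)

def Type1 (X : ℚ) : Prop := ∃ M e K L : ℤ, (X.den : ℤ) = e ^ 2 ∧ X.num = M ^ 2 ∧
  X.num - X.den = K ^ 2 ∧ X.num - 81 * X.den = L ^ 2

def Type5 (X : ℚ) : Prop := ∃ M e K L : ℤ, (X.den : ℤ) = e ^ 2 ∧ X.num = M ^ 2 ∧
  X.num - X.den = 5 * K ^ 2 ∧ X.num - 81 * X.den = 5 * L ^ 2

lemma selmer_rat {X : ℚ} (h : IsPt X) : Type1 X ∨ Type5 X := by
  obtain ⟨hX, Y, hY⟩ := h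
  have hn : (0 : ℤ) < (X.den : ℤ) := by exact_mod_cast X.den_pos
  have hnQ : (0 : ℚ) < (X.den : ℚ) := by exact_mod_cast X.den_pos
  have hXeq : X = (X.num : ℚ) / (X.den : ℚ) := (Rat.num_div_den X).symm
  have hm : 81 * (X.den : ℤ) < X.num := by
    have h1 : (81 : ℚ) * (X.den : ℚ) < (X.num : ℚ) := by
      rw [hXeq, lt_div_iff₀ hnQ] at hX
      exact hX
    exact_mod_cast h1
  have hsq : IsSquare (((X.num * X.den * (X.num - X.den) * (X.num - 81 * X.den) : ℤ)) : ℚ) := by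
    refine ⟨Y * (X.den : ℚ) ^ 2, ?_⟩
    have h2 : (Y * (X.den : ℚ) ^ 2) * (Y * (X.den : ℚ) ^ 2) = Y ^ 2 * (X.den : ℚ) ^ 4 := by ring
    rw [h2, hY]
    push_cast
    have h3 : X * (X.den : ℚ) = (X.num : ℚ) := by
      rw [hXeq]
      simp only [Rat.num_div_den]
      exact Rat.mul_den_eq_num X
    have h4 : X * (X - 1) * (X - 81) * (X.den : ℚ) ^ 4 =
        (X * X.den) * X.den * (X * X.den - X.den) * (X * X.den - 81 * X.den) := by ring
    rw [h4, h3]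
  obtain ⟨N, hN⟩ := Rat.isSquare_intCast_iff.1 hsq
  obtain ⟨M, e, K, L, h1, h2, h3⟩ := selmer_int X.num X.den N hn hm X.isCoprime_num_den
    (by rw [hN]; ring)
  rcases h3 with ⟨h3, h4⟩ | ⟨h3, h4⟩
  · exact Or.inl ⟨M, e, K, L, h1, h2, h3, h4⟩
  · exact Or.inr ⟨M, e, K, L, h1, h2, h3, h4⟩


lemma not_isSquare_five : ¬ IsSquare (5 : ℚ) := by
  rw [show (5 : ℚ) = ((5 : ℕ) : ℚ) by norm_num, Rat.isSquare_natCast_iff]
  rintro ⟨r, hr⟩
  have : r < 3 := by nlinarith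
  interval_cases r <;> omega

lemma Type5.exists_eq {X : ℚ} (h : Type5 X) : ∃ r : ℚ, X - 81 = 5 * r ^ 2 := by
  obtain ⟨M, e, K, L, h1, -, -, h4⟩ := h
  have hnQ : (X.den : ℚ) ≠ 0 := by exact_mod_cast X.den_pos.ne'
  have h1Q : (X.den : ℚ) = (e : ℚ) ^ 2 := by exact_mod_cast h1
  have h4Q : (X.num : ℚ) - 81 * (X.den : ℚ) = 5 * (L : ℚ) ^ 2 := by exact_mod_cast h4
  have he : (e : ℚ) ≠ 0 := by
    rintro h0
    rw [h0] at h1Q
    exact hnQ (by rw [h1Q]; ring)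
  refine ⟨L / e, ?_⟩
  have hXeq : X = (X.num : ℚ) / (X.den : ℚ) := (Rat.num_div_den X).symm
  rw [hXeq, h1Q]
  rw [h1Q] at h4Q
  field_simp
  linarith

lemma type1_or {X X' : ℚ} (hX : IsPt X) (hX' : IsPt X') (h : (X - 81) * (X' - 81) = 6480) :
    Type1 X ∨ Type1 X' := by
  rcases selmer_rat hX with h1 | h1
  · exact Or.inl h1
  rcases selmer_rat hX' with h2 | h2
  · exact Or.inr h2
  exfalso
  obtain ⟨r, hr⟩ := h1.exists_eq
  obtain ⟨r', hr'⟩ := h2.exists_eq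
  rw [hr, hr'] at h
  exact not_isSquare_five ⟨5 * r * r' / 36, by linear_combination (-1 / 1296 : ℚ) * h⟩

/-- the halving formulas -/
lemma isPt_half {M K L e : ℚ} (he : e ≠ 0) (h1 : M ^ 2 - e ^ 2 = K ^ 2)
    (h2 : M ^ 2 - 81 * e ^ 2 = L ^ 2) (hML : 0 < M + L) (hKL : 0 < K + L) :
    IsPt ((M + K) * (M + L) / e ^ 2) ∧
      (M + K) * (M + L) / e ^ 2 - 81 = (M + L) * (K + L) / e ^ 2 := by
  have e2 : (M + K) * (M + L) / e ^ 2 - 1 = (M + K) * (K + L) / e ^ 2 := by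
    field_simp
    linear_combination h1
  have e3 : (M + K) * (M + L) / e ^ 2 - 81 = (M + L) * (K + L) / e ^ 2 := by
    field_simp
    linear_combination h2
  refine ⟨⟨?_, (M + K) * (M + L) * (K + L) / e ^ 3, ?_⟩, e3⟩
  · have : 0 < (M + L) * (K + L) / e ^ 2 := by positivity
    linarith
  · rw [e2, e3]
    field_simp


lemma den_div_le {a b : ℤ} (hb : 0 < b) : (((a : ℚ) / (b : ℚ)).den : ℤ) ≤ b := by
  rw [Rat.intCast_div_eq_divInt]
  exact Int.le_of_dvd hb (Rat.den_dvd a b)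

lemma descent {X : ℚ} (h : Type1 X) : ∃ X' : ℚ, Type1 X' ∧ X'.den < X.den := by
  obtain ⟨M0, e0, K0, L0, h1, h2, h3, h4⟩ := h
  obtain ⟨M, hM0, hM⟩ : ∃ M : ℤ, 0 ≤ M ∧ M ^ 2 = M0 ^ 2 := ⟨|M0|, abs_nonneg _, sq_abs _⟩
  obtain ⟨e, he0, he⟩ : ∃ e : ℤ, 0 ≤ e ∧ e ^ 2 = e0 ^ 2 := ⟨|e0|, abs_nonneg _, sq_abs _⟩
  obtain ⟨K, hK0, hK⟩ : ∃ K : ℤ, 0 ≤ K ∧ K ^ 2 = K0 ^ 2 := ⟨|K0|, abs_nonneg _, sq_abs _⟩
  obtain ⟨L, hL0, hL⟩ : ∃ L : ℤ, 0 ≤ L ∧ L ^ 2 = L0 ^ 2 := ⟨|L0|, abs_nonneg _, sq_abs _⟩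
  have hn : (0 : ℤ) < (X.den : ℤ) := by exact_mod_cast X.den_pos
  have hden : (X.den : ℤ) = e ^ 2 := by rw [he, h1]
  have a1 : M ^ 2 - e ^ 2 = K ^ 2 := by rw [hM, he, hK, ← h2, ← h1, h3]
  have a2 : M ^ 2 - 81 * e ^ 2 = L ^ 2 := by rw [hM, he, hL, ← h2, ← h1, h4]
  have hepos : 0 < e := by
    rcases he0.lt_or_eq with h | h
    · exact h
    · exfalso; rw [hden, ← h] at hn; norm_num at hn
  have hMK : K < M := by nlinarith
  have hKL : L < K := by nlinarith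
  have hM9 : 9 ≤ M := by nlinarith
  have b1 : (M : ℚ) ^ 2 - (e : ℚ) ^ 2 = (K : ℚ) ^ 2 := by exact_mod_cast a1
  have b2 : (M : ℚ) ^ 2 - 81 * (e : ℚ) ^ 2 = (L : ℚ) ^ 2 := by exact_mod_cast a2
  have b2' : (M : ℚ) ^ 2 - 81 * (e : ℚ) ^ 2 = (-(L : ℚ)) ^ 2 := by rw [b2]; ring
  have heQ : (e : ℚ) ≠ 0 := by exact_mod_cast hepos.ne'
  have hMKQ : (K : ℚ) < (M : ℚ) := by exact_mod_cast hMK
  have hKLQ : (L : ℚ) < (K : ℚ) := by exact_mod_cast hKL
  have hL0Q : (0 : ℚ) ≤ (L : ℚ) := by exact_mod_cast hL0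
  obtain ⟨p1, q1⟩ := isPt_half heQ b1 b2 (by linarith) (by linarith)
  obtain ⟨p2, q2⟩ := isPt_half heQ b1 b2' (by linarith) (by linarith)
  have hprod : ((M + K) * (M + L) / (e : ℚ) ^ 2 - 81) * ((M + K) * (M + -(L : ℚ)) / (e : ℚ) ^ 2 - 81)
      = 6480 := by
    rw [q1, q2, div_mul_div_comm, div_eq_iff (by positivity)]
    linear_combination ((K : ℚ) ^ 2 - (L : ℚ) ^ 2) * b2 + 81 * (e : ℚ) ^ 2 * (b2 - b1)
  have hD : (0 : ℤ) < M - K := by linarith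
  have hDQ : ((M : ℚ) - (K : ℚ)) ≠ 0 := by
    have : (0 : ℚ) < (M : ℚ) - (K : ℚ) := by linarith
    exact this.ne'
  have d1 : ((M : ℚ) + K) * (M + L) / (e : ℚ) ^ 2 = (((M + L : ℤ)) : ℚ) / (((M - K : ℤ)) : ℚ) := by
    push_cast
    rw [div_eq_div_iff (by positivity) hDQ]
    linear_combination ((M : ℚ) + L) * b1
  have d2 : ((M : ℚ) + K) * (M + -(L : ℚ)) / (e : ℚ) ^ 2 =
      (((M - L : ℤ)) : ℚ) / (((M - K : ℤ)) : ℚ) := by
    push_cast
    rw [div_eq_div_iff (by positivity) hDQ]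
    linear_combination ((M : ℚ) - L) * b1
  have hlt : M - K < (X.den : ℤ) := by
    rw [hden]
    nlinarith
  rcases type1_or p1 p2 hprod with t | t
  · refine ⟨_, t, ?_⟩
    have := den_div_le (a := M + L) hD
    rw [← d1] at this
    have h5 := lt_of_le_of_lt this hlt
    exact_mod_cast h5
  · refine ⟨_, t, ?_⟩
    have := den_div_le (a := M - L) hD
    rw [← d2] at this
    have h5 := lt_of_le_of_lt this hlt
    exact_mod_cast h5

lemma not_type1 (X : ℚ) : ¬ Type1 X := by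
  induction hn : X.den using Nat.strong_induction_on generalizing X with
  | _ n ih =>
    intro h
    obtain ⟨X', h', hlt⟩ := descent h
    exact ih X'.den (hn ▸ hlt) X' rfl h'


lemma not_isPt (X : ℚ) : ¬ IsPt X := by
  intro h
  obtain ⟨hX, Y, hY⟩ := h
  have hne : X - 81 ≠ 0 := by
    have : 0 < X - 81 := by linarith
    exact this.ne'
  have e3 : 81 * (X - 1) / (X - 81) - 81 = 6480 / (X - 81) := by
    field_simp
    ring
  have e2 : 81 * (X - 1) / (X - 81) - 1 = 80 * X / (X - 81) := by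
    field_simp
    ring
  have h' : IsPt (81 * (X - 1) / (X - 81)) := by
    refine ⟨?_, 6480 * Y / (X - 81) ^ 2, ?_⟩
    · have : 0 < 6480 / (X - 81) := by
        have : 0 < X - 81 := by linarith
        positivity
      linarith
    · rw [e2, e3, div_pow, mul_pow, hY]
      field_simp
      ring
  have hprod : (X - 81) * (81 * (X - 1) / (X - 81) - 81) = 6480 := by
    rw [e3]
    field_simp
  rcases type1_or ⟨hX, Y, hY⟩ h' hprod with t | t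
  · exact not_type1 _ t
  · exact not_type1 _ t

/-- The curve `Y² = X (X - 1) (X - 81)` (15a2) has only the 2-torsion rational points. -/
theorem mw15b (X Y : ℚ) (h : Y ^ 2 = X * (X - 1) * (X - 81)) : X = 0 ∨ X = 1 ∨ X = 81 := by
  by_contra hcon
  simp only [not_or] at hcon
  obtain ⟨h0, h1, h81⟩ := hcon
  have hpos : 0 < X * (X - 1) * (X - 81) := by
    have hne : X * (X - 1) * (X - 81) ≠ 0 :=
      mul_ne_zero (mul_ne_zero h0 (sub_ne_zero.2 h1)) (sub_ne_zero.2 h81)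
    have : 0 ≤ X * (X - 1) * (X - 81) := h ▸ sq_nonneg Y
    exact lt_of_le_of_ne this hne.symm
  rcases lt_trichotomy X 81 with hlt | heq | hgt
  · -- then `0 < X < 1`
    have hX0 : 0 < X := by
      by_contra hneg
      have hneg : X < 0 := lt_of_le_of_ne (not_lt.1 hneg) h0
      have : X * (X - 1) * (X - 81) < 0 := by
        have h2 : 0 < X * (X - 1) := mul_pos_of_neg_of_neg hneg (by linarith)
        exact mul_neg_of_pos_of_neg h2 (by linarith)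
      linarith
    have hX1 : X < 1 := by
      by_contra hge
      have hge : 1 < X := lt_of_le_of_ne (not_lt.1 hge) (Ne.symm h1)
      have : X * (X - 1) * (X - 81) < 0 := by
        have h2 : 0 < X * (X - 1) := mul_pos hX0 (by linarith)
        exact mul_neg_of_pos_of_neg h2 (by linarith)
      linarith
    refine not_isPt (81 / X) ⟨?_, 81 * Y / X ^ 2, ?_⟩
    · rw [lt_div_iff₀ hX0]
      nlinarith
    · rw [div_pow, mul_pow, h]
      field_simp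
      ring
  · exact h81 heq
  · exact not_isPt X ⟨hgt, Y, h⟩

/-- The curve `Y² = U (U - 16) (U + 9)` (15a1, a model of `X₀(15)`) has exactly the eight
rational torsion points. -/
theorem mw15 (U Y : ℚ) (h : Y ^ 2 = U * (U - 16) * (U + 9)) :
    U = 0 ∨ U = 16 ∨ U = -9 ∨ U = -4 ∨ U = 36 := by
  by_cases h16 : U = 16
  · exact Or.inr (Or.inl h16)
  have hx : U - 16 ≠ 0 := sub_ne_zero.2 h16
  have key := mw15b (U * (U + 9) / (U - 16)) (Y * (U + 4) * (U - 36) / (U - 16) ^ 2) (by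
    rw [div_pow, mul_pow, mul_pow, h]
    field_simp
    ring)
  rcases key with k | k | k
  · rw [div_eq_zero_iff] at k
    rcases k with k | k
    · rcases mul_eq_zero.1 k with k | k
      · exact Or.inl k
      · exact Or.inr (Or.inr (Or.inl (by linarith)))
    · exact absurd k hx
  · rw [div_eq_iff hx] at k
    have : (U + 4) ^ 2 = 0 := by linear_combination k
    have : U + 4 = 0 := by simpa using this
    exact Or.inr (Or.inr (Or.inr (Or.inl (by linarith))))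
  · rw [div_eq_iff hx] at k
    have : (U - 36) ^ 2 = 0 := by linear_combination k
    have : U - 36 = 0 := by simpa using this
    exact Or.inr (Or.inr (Or.inr (Or.inr (by linarith))))


theorem thmD (x y : ℚ) (h : y ^ 2 = x * (x - 1) * (x - 81)) : y = 0 := by
  rcases mw15b x y h with rfl | rfl | rfl <;> simpa using h

theorem desc (a w : ℚ) (h : w ^ 2 = (a ^ 2 - 1) * (a ^ 2 - 81)) :
    a = 0 ∨ a ^ 2 = 1 ∨ a ^ 2 = 81 := by
  rcases mw15b (a ^ 2) (a * w) (by rw [mul_pow, h]; ring) with h1 | h1 | h1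
  · exact Or.inl (by simpa using h1)
  · exact Or.inr (Or.inl h1)
  · exact Or.inr (Or.inr h1)

end Fermat.Agent.S51
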