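import Fermat.Agent.S51.DescentHub

set_option autoImplicit false

namespace Fermat.Agent.S51.Hub

/-- `y² = x (x-1) (x-81)` has only the 2-torsion points. -/
theorem curveC (x y : ℚ) (h : y^2 = x * (x - 1) * (x - 81)) : y = 0 := by
  by_contra hy
  refine hub_rat ((x^2 - 81) / (2*y)) ((x^2 - 2*x + 81) / (2*y)) ((x^2 - 162*x + 81) / (2*y)) ?_ ?_
  · field_simp
    linear_combination (-4) * h
  · field_simp
    linear_combination (-324) * h

/-- rational points of `Y² = X (X+9) (X-16)`. -/
theorem curveX (X Y : ℚ) (h : Y^2 = X * (X + 9) * (X - 16)) :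
    X = 0 ∨ X = -9 ∨ X = 16 ∨ X = 36 ∨ X = -4 := by
  by_cases h16 : X = 16
  · right; right; left; exact h16
  have h16' : X - 16 ≠ 0 := sub_ne_zero.mpr h16
  have key := curveC (X * (X + 9) / (X - 16)) (Y * (X + 4) * (X - 36) / (X - 16)^2) (by
    field_simp
    linear_combination (X+4)^2 * (X-36)^2 * h)
  have h2 : Y * (X + 4) * (X - 36) = 0 := by
    have := (div_eq_zero_iff.mp key)
    rcases this with h0 | h0
    · exact h0
    · exact absurd (pow_eq_zero_iff (by norm_num) |>.mp h0) h16'
  rcases mul_eq_zero.mp h2 with h3 | h3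
  · rcases mul_eq_zero.mp h3 with h4 | h4
    · rw [h4] at h
      have : X * (X + 9) * (X - 16) = 0 := by linarith
      rcases mul_eq_zero.mp this with h5 | h5
      · rcases mul_eq_zero.mp h5 with h6 | h6
        · left; exact h6
        · right; left; linarith
      · exact absurd h5 h16'
    · right; right; right; right; linarith
  · right; right; right; left; linarith

theorem curveS (s y : ℚ) (h : y^2 = s * (4*s + 1) * (9*s - 4)) :
    s = 0 ∨ s = -1/4 ∨ s = 4/9 ∨ s = 1 ∨ s = -1/9 := by
  rcases curveX (36*s) (36*y) (by linear_combination 1296 * h) with h | h | h | h | h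
  · left; linarith
  · right; left; linarith
  · right; right; left; linarith
  · right; right; right; left; linarith
  · right; right; right; right; linarith

/-- the possible values of `t = u - 11`. -/
theorem chain_t (u s V : ℚ) (hI : 4*V^2 = (u^2 + 4) * (4*s + 1))
    (hII : 2*V*(s+1) = -6*s^2 - u*(3*s+1)) :
    u = -3/2 ∨ u = 63/8 ∨ u = 1 ∨ u = 11 ∨ u = -29 := by
  have hG : s^3*u^2 - 3*s^2*(3*s+1)*u + (-9*s^4 + 4*s^3 + 9*s^2 + 6*s + 1) = 0 := by
    have : (2*V*(s+1))^2 = (-6*s^2 - u*(3*s+1))^2 := by rw [hII]
    linear_combination (1/4) * this - (1/4) * (s+1)^2 * hI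
  have hs0 : s ≠ 0 := by
    rintro rfl
    norm_num at hG
  have hs1 : s + 1 ≠ 0 := by
    intro h
    have : s = -1 := by linarith
    subst this
    nlinarith [sq_nonneg V, sq_nonneg u]
  have hy := curveS s ((2*s^3*u - 3*s^2*(3*s+1)) / (s*(s+1))) (by
    field_simp
    linear_combination 4 * hG)
  rcases hy with h | h | h | h | h
  · exact absurd h hs0
  · subst h
    left
    have : (2*u + 3)^2 = 0 := by linear_combination (-256) * hG
    have := pow_eq_zero_iff (by norm_num) |>.mp this
    linarith
  · subst h
    right; left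
    have : (8*u - 63)^2 = 0 := by linear_combination 729 * hG
    have := pow_eq_zero_iff (by norm_num) |>.mp this
    linarith
  · subst h
    have : (u - 1) * (u - 11) = 0 := by linear_combination hG
    rcases mul_eq_zero.mp this with h | h
    · right; right; left; linarith
    · right; right; right; left; linarith
  · subst h
    have : (u - 11) * (u + 29) = 0 := by linear_combination (-729) * hG
    rcases mul_eq_zero.mp this with h | h
    · right; right; right; left; linarith
    · right; right; right; right; linarith

end Fermat.Agent.S51.Hub
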