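import Mathlib

set_option autoImplicit false

namespace Fermat.Agent.S51.Hub

lemma three_dvd_of_sq_add_sq {x z : ℤ} (h : (3:ℤ) ∣ x^2 + z^2) : (3:ℤ) ∣ x ∧ (3:ℤ) ∣ z := by
  have hx : x % 3 = 0 ∨ x % 3 = 1 ∨ x % 3 = 2 := by omega
  have hz : z % 3 = 0 ∨ z % 3 = 1 ∨ z % 3 = 2 := by omega
  have h' : (x^2 + z^2) % 3 = 0 := Int.emod_eq_zero_of_dvd h
  rcases hx with hx | hx | hx <;> rcases hz with hz | hz | hz <;>
    simp [pow_two, Int.add_emod, Int.mul_emod, hx, hz] at h'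
  exact ⟨Int.dvd_of_emod_eq_zero hx, Int.dvd_of_emod_eq_zero hz⟩

lemma nine_dvd_of_eq {X Y Z : ℤ} (h : X^2 = 81*Y^2 - Z^2) : ∃ X₁ Z₁, X = 9*X₁ ∧ Z = 9*Z₁ := by
  have h1 : (3:ℤ) ∣ X^2 + Z^2 := ⟨27*Y^2, by rw [h]; ring⟩
  obtain ⟨⟨x, rfl⟩, ⟨z, rfl⟩⟩ := three_dvd_of_sq_add_sq h1
  have h2 : (3:ℤ) ∣ x^2 + z^2 := ⟨3*Y^2, by nlinarith⟩
  obtain ⟨⟨x', rfl⟩, ⟨z', rfl⟩⟩ := three_dvd_of_sq_add_sq h2
  exact ⟨x', z', by ring, by ring⟩

/-- The target system. -/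
def Sys (a e b c : ℤ) : Prop := a^2 - e^2 = b^2 ∧ a^2 - 81*e^2 = c^2

/-- if `Y² - Z² = W²` and `81 Y² - Z² = X²` with `Y, Z` coprime, `Z > 0` we get a solution with
second entry `Z / 9`. -/
lemma fam_nine {X Y Z W : ℤ} (hcop : IsCoprime Y Z) (hZ : 0 < Z)
    (h1 : X^2 = 81*Y^2 - Z^2) (h2 : Y^2 - Z^2 = W^2) :
    ∃ a e b c : ℤ, IsCoprime a e ∧ 0 < e ∧ e < Z ∧ Sys a e b c := by
  obtain ⟨X₁, Z₁, rfl, rfl⟩ := nine_dvd_of_eq h1
  refine ⟨Y, Z₁, X₁, W, hcop.of_mul_right_right, by linarith, by linarith, ?_, ?_⟩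
  · nlinarith
  · nlinarith

lemma lt_prod_of_two_le {x y z w : ℤ} (hx : 0 < x) (hy : 0 < y) (hz : 0 < z) (hw : 2 ≤ w) :
    x < x * y * z * w := by
  have h1 : 1 ≤ y * z := by nlinarith
  have h2 : 2 ≤ y * z * w := by nlinarith
  nlinarith

lemma le_prod {x y z w : ℤ} (hx : 0 < x) (hy : 0 < y) (hz : 0 < z) (hw : 0 < w) :
    x ≤ x * y * z * w := by
  have h1 : 1 ≤ y * z := by nlinarith
  have h2 : 1 ≤ y * z * w := by nlinarith
  nlinarith


lemma sq_mod8 (x : ℤ) :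
    (x % 2 = 1 ∧ x^2 % 8 = 1) ∨ (x % 2 = 0 ∧ (x^2 % 8 = 0 ∨ x^2 % 8 = 4)) := by
  have hx : x % 8 = 0 ∨ x % 8 = 1 ∨ x % 8 = 2 ∨ x % 8 = 3 ∨ x % 8 = 4 ∨ x % 8 = 5 ∨ x % 8 = 6 ∨
      x % 8 = 7 := by omega
  have h2 : x^2 % 8 = ((x % 8) * (x % 8)) % 8 := by rw [pow_two, Int.mul_emod]
  rcases hx with hx | hx | hx | hx | hx | hx | hx | hx <;> rw [hx] at h2 <;> norm_num at h2 <;> omega

lemma odd_or_odd_of_isCoprime {x y : ℤ} (h : IsCoprime x y) : x % 2 = 1 ∨ y % 2 = 1 := by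
  by_contra hcon
  have hx : (2:ℤ) ∣ x := by omega
  have hy : (2:ℤ) ∣ y := by omega
  have := h.isUnit_of_dvd' hx hy
  rw [Int.isUnit_iff] at this
  omega

lemma sigma_step (α β γ δ : ℤ) (hα : 0 < α) (hβ : 0 < β) (hγ : 0 < γ) (hδ : 0 < δ)
    (hαδ : IsCoprime α δ) (hβγ : IsCoprime β γ)
    (h : α^2*γ^2 + β^2*δ^2 = 81*α^2*β^2 + γ^2*δ^2) :
    ∃ a e b c : ℤ, IsCoprime a e ∧ 0 < e ∧ e < α*β*γ*δ ∧ Sys a e b c := by
  have h1 : α^2 * (γ^2 - 81*β^2) = δ^2 * (γ^2 - β^2) := by linarith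
  have hcop2 : IsCoprime (α^2) (δ^2) := hαδ.pow
  have hdvd : α^2 ∣ γ^2 - β^2 := hcop2.dvd_of_dvd_mul_left ⟨γ^2 - 81*β^2, h1.symm⟩
  obtain ⟨k, hk⟩ := hdvd
  have hα2 : α^2 ≠ 0 := by positivity
  have hk2 : γ^2 - 81*β^2 = δ^2 * k := by
    apply mul_left_cancel₀ hα2
    rw [h1, hk]; ring
  have e1 : k * (α^2 - δ^2) = 80 * β^2 := by linarith
  have e2 : k * (81*α^2 - δ^2) = 80 * γ^2 := by linarith
  have hk80 : k ∣ 80 := by
    obtain ⟨u, v, huv⟩ : IsCoprime (β^2) (γ^2) := hβγ.pow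
    exact ⟨u*(α^2 - δ^2) + v*(81*α^2-δ^2), by linear_combination (-80)*huv - u*e1 - v*e2⟩
  have hmem : k.natAbs ∈ Nat.divisors 80 :=
    Nat.mem_divisors.mpr ⟨by simpa using Int.natAbs_dvd_natAbs.mpr hk80, by norm_num⟩
  have hdiv : Nat.divisors 80 = {1,2,4,5,8,10,16,20,40,80} := by decide
  rw [hdiv] at hmem
  simp only [Finset.mem_insert, Finset.mem_singleton] at hmem
  have hP1 := le_prod hγ hα hβ hδ
  have hP2 := le_prod hδ hα hβ hγ
  have hA := sq_mod8 α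
  have hB := sq_mod8 β
  have hG := sq_mod8 γ
  have hD := sq_mod8 δ
  have hp1 := odd_or_odd_of_isCoprime hαδ
  have hp2 := odd_or_odd_of_isCoprime hβγ
  -- family `k = t^2`
  have F1 : ∀ t : ℤ, k = t^2 → ∃ a e b c : ℤ, IsCoprime a e ∧ 0 < e ∧ e < α*β*γ*δ ∧ Sys a e b c := by
    intro t ht
    have hkpos : 0 < k := by
      rcases lt_trichotomy k 0 with hneg | h0 | hpos
      · nlinarith [sq_nonneg t]
      · rw [h0] at hk80; simp at hk80
      · exact hpos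
    have hγβ : β < γ := by
      have : 0 < α^2 * k := by positivity
      nlinarith
    refine ⟨γ, β, t*α, t*δ, hβγ.symm, hβ, ?_, ?_, ?_⟩
    · have := lt_prod_of_two_le hβ hα hδ (w := γ) (by linarith)
      nlinarith
    · rw [hk, ht]; ring
    · rw [hk2, ht]; ring
  -- family `k = -t^2`
  have F2 : ∀ t : ℤ, k = -t^2 → ∃ a e b c : ℤ, IsCoprime a e ∧ 0 < e ∧ e < α*β*γ*δ ∧ Sys a e b c := by
    intro t ht
    obtain ⟨a, e, b, c, h1, h2, h3, h4⟩ := fam_nine (X := t*δ) (Y := β) (Z := γ) (W := t*α) hβγ hγ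
      (by rw [ht] at hk2; linear_combination hk2) (by rw [ht] at hk; linear_combination -hk)
    exact ⟨a, e, b, c, h1, h2, by nlinarith, h4⟩
  -- family `k = 5 t^2`, `t * t' = 4`
  have F3 : ∀ t t' : ℤ, t * t' = 4 → k = 5*t^2 →
      ∃ a e b c : ℤ, IsCoprime a e ∧ 0 < e ∧ e < α*β*γ*δ ∧ Sys a e b c := by
    intro t t' htt ht
    have ht0 : (5 * t^2 : ℤ) ≠ 0 := by
      intro h0; rw [h0] at ht; rw [ht] at hk80; simp at hk80
    obtain ⟨a, e, b, c, h1, h2, h3, h4⟩ := fam_nine (X := t'*γ) (Y := α) (Z := δ) (W := t'*β) hαδ hδ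
      (by
        apply mul_left_cancel₀ ht0
        rw [ht] at e2
        have : (t*t')^2 = 16 := by rw [htt]; norm_num
        linear_combination 5*γ^2 * this - e2)
      (by
        apply mul_left_cancel₀ ht0
        rw [ht] at e1
        have : (t*t')^2 = 16 := by rw [htt]; norm_num
        linear_combination e1 - 5*β^2 * this)
    exact ⟨a, e, b, c, h1, h2, by nlinarith, h4⟩
  -- family `k = -5 t^2`
  have F4 : ∀ t t' : ℤ, t * t' = 4 → k = -(5*t^2) →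
      ∃ a e b c : ℤ, IsCoprime a e ∧ 0 < e ∧ e < α*β*γ*δ ∧ Sys a e b c := by
    intro t t' htt ht
    have ht0 : (5 * t^2 : ℤ) ≠ 0 := by
      intro h0; rw [h0] at ht; rw [ht] at hk80; simp at hk80
    have hsq : (t*t')^2 = 16 := by rw [htt]; norm_num
    have g1 : δ^2 - α^2 = (t'*β)^2 := by
      apply mul_left_cancel₀ ht0
      rw [ht] at e1
      linear_combination e1 - 5*β^2 * hsq
    have g2 : δ^2 - 81*α^2 = (t'*γ)^2 := by
      apply mul_left_cancel₀ ht0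
      rw [ht] at e2
      linear_combination e2 - 5*γ^2 * hsq
    have ht' : t' ≠ 0 := by rintro rfl; simp at htt
    have hαδ' : α < δ := by
      have : 0 < (t'*β)^2 := by positivity
      nlinarith
    refine ⟨δ, α, t'*β, t'*γ, hαδ.symm, hα, ?_, g1, g2⟩
    have := lt_prod_of_two_le hα hβ hγ (w := δ) (by linarith)
    nlinarith
  rcases Int.natAbs_eq k with hs | hs <;>
  rcases hmem with hm | hm | hm | hm | hm | hm | hm | hm | hm | hm <;> rw [hm] at hs <;>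
    norm_num at hs
  · exact F1 1 (by rw [hs]; norm_num)
  · exfalso; rw [hs] at hk hk2; omega
  · exact F1 2 (by rw [hs]; norm_num)
  · exact F3 1 4 (by norm_num) (by rw [hs]; norm_num)
  · exfalso; rw [hs] at hk hk2 e1; omega
  · exfalso; rw [hs] at hk hk2; omega
  · exact F1 4 (by rw [hs]; norm_num)
  · exact F3 2 2 (by norm_num) (by rw [hs]; norm_num)
  · exfalso; rw [hs] at hk hk2 e1; omega
  · exact F3 4 1 (by norm_num) (by rw [hs]; norm_num)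
  · exact F2 1 (by rw [hs]; norm_num)
  · exfalso; rw [hs] at hk hk2; omega
  · exact F2 2 (by rw [hs]; norm_num)
  · exact F4 1 4 (by norm_num) (by rw [hs]; norm_num)
  · exfalso; rw [hs] at hk hk2 e1; omega
  · exfalso; rw [hs] at hk hk2; omega
  · exact F2 4 (by rw [hs]; norm_num)
  · exact F4 2 2 (by norm_num) (by rw [hs]; norm_num)
  · exfalso; rw [hs] at hk hk2 e1; omega
  · exact F4 4 1 (by norm_num) (by rw [hs]; norm_num)


lemma sigma_of_prod (p q r₁ s : ℕ) (_hp : 0 < p) (_hq : 0 < q) (hr : 0 < r₁) (hs : 0 < s)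
    (hpq : Nat.Coprime p q) (hrs : Nat.Coprime r₁ s) (hprod : r₁ * s = p * q)
    (hsum : (p:ℤ)^2 + (q:ℤ)^2 = 81 * (r₁:ℤ)^2 + (s:ℤ)^2) :
    ∃ a e b c : ℤ, IsCoprime a e ∧ 0 < e ∧ e < (p:ℤ) * q ∧ Sys a e b c := by
  have hr1 : r₁ = r₁.gcd p * r₁.gcd q := by
    rw [← Nat.Coprime.gcd_mul r₁ hpq, Nat.gcd_eq_left ⟨s, hprod.symm⟩]
  have hs1 : s = s.gcd p * s.gcd q := by
    rw [← Nat.Coprime.gcd_mul s hpq, Nat.gcd_eq_left ⟨r₁, by rw [← hprod, mul_comm]⟩]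
  have hp1 : p = r₁.gcd p * s.gcd p := by
    rw [Nat.gcd_comm r₁ p, Nat.gcd_comm s p, ← Nat.Coprime.gcd_mul p hrs,
      Nat.gcd_eq_left ⟨q, hprod⟩]
  have hq1 : q = r₁.gcd q * s.gcd q := by
    rw [Nat.gcd_comm r₁ q, Nat.gcd_comm s q, ← Nat.Coprime.gcd_mul q hrs,
      Nat.gcd_eq_left ⟨p, by rw [hprod, mul_comm]⟩]
  set α := r₁.gcd p with hα
  set β := r₁.gcd q with hβ
  set γ := s.gcd p with hγ
  set δ := s.gcd q with hδ
  have hα0 : 0 < α := Nat.gcd_pos_of_pos_left _ hr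
  have hβ0 : 0 < β := Nat.gcd_pos_of_pos_left _ hr
  have hγ0 : 0 < γ := Nat.gcd_pos_of_pos_left _ hs
  have hδ0 : 0 < δ := Nat.gcd_pos_of_pos_left _ hs
  have hαδ : Nat.Coprime α δ :=
    Nat.Coprime.coprime_dvd_left (Nat.gcd_dvd_right _ _)
      (Nat.Coprime.coprime_dvd_right (Nat.gcd_dvd_right _ _) hpq)
  have hβγ : Nat.Coprime β γ :=
    Nat.Coprime.coprime_dvd_left (Nat.gcd_dvd_right _ _)
      (Nat.Coprime.coprime_dvd_right (Nat.gcd_dvd_right _ _) hpq.symm)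
  have hr1' : (r₁:ℤ) = α * β := by exact_mod_cast hr1
  have hs1' : (s:ℤ) = γ * δ := by exact_mod_cast hs1
  have hp1' : (p:ℤ) = α * γ := by exact_mod_cast hp1
  have hq1' : (q:ℤ) = β * δ := by exact_mod_cast hq1
  obtain ⟨a, e, b, c, h1, h2, h3, h4⟩ := sigma_step (α:ℤ) β γ δ (by exact_mod_cast hα0)
    (by exact_mod_cast hβ0) (by exact_mod_cast hγ0) (by exact_mod_cast hδ0)
    (Nat.isCoprime_iff_coprime.mpr hαδ) (Nat.isCoprime_iff_coprime.mpr hβγ)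
    (by rw [hr1', hs1', hp1', hq1'] at hsum; linear_combination hsum)
  refine ⟨a, e, b, c, h1, h2, ?_, h4⟩
  rw [hp1', hq1']; linarith

lemma sigma_nine (p q r s : ℕ) (hp : 0 < p) (hq : 0 < q) (hr : 0 < r) (hs : 0 < s)
    (hpq : Nat.Coprime p q) (hrs : Nat.Coprime r s) (hprod : r * s = 9 * (p * q))
    (hsum : (p:ℤ)^2 + (q:ℤ)^2 = (r:ℤ)^2 + (s:ℤ)^2) :
    ∃ a e b c : ℤ, IsCoprime a e ∧ 0 < e ∧ e < (p:ℤ) * q ∧ Sys a e b c := by
  have key : ∀ r s : ℕ, 0 < r → 0 < s → Nat.Coprime r s → r * s = 9 * (p * q) →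
      (p:ℤ)^2 + (q:ℤ)^2 = (r:ℤ)^2 + (s:ℤ)^2 → 3 ∣ r →
      ∃ a e b c : ℤ, IsCoprime a e ∧ 0 < e ∧ e < (p:ℤ) * q ∧ Sys a e b c := by
    intro r s hr hs hrs hprod hsum h3
    have h3s : Nat.Coprime 3 s := Nat.Coprime.coprime_dvd_left h3 hrs
    have h9s : Nat.Coprime 9 s := by
      have := Nat.Coprime.pow_left 2 h3s
      norm_num at this; exact this
    have h9r : 9 ∣ r := h9s.dvd_of_dvd_mul_right ⟨p * q, hprod⟩
    obtain ⟨r₁, rfl⟩ := h9r
    have hr1 : 0 < r₁ := by omega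
    refine sigma_of_prod p q r₁ s hp hq hr1 hs hpq
      (Nat.Coprime.coprime_dvd_left ⟨9, by ring⟩ hrs) (by nlinarith) ?_
    push_cast at hsum
    linear_combination hsum
  have h3 : 3 ∣ r * s := ⟨3 * (p * q), by rw [hprod]; ring⟩
  rcases (Nat.Prime.dvd_mul Nat.prime_three).mp h3 with h | h
  · exact key r s hr hs hrs hprod hsum h
  · exact key s r hs hr hrs.symm (by rw [mul_comm, hprod]) (by rw [hsum]; ring) h

/-- coprime positive factors of a square -/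
lemma sq_split (U U' n : ℤ) (hU : 0 < U) (hU' : 0 < U') (hn : 0 < n) (hcop : IsCoprime U U')
    (h : U * U' = n^2) :
    ∃ p q : ℕ, 0 < p ∧ 0 < q ∧ Nat.Coprime p q ∧ U = (p:ℤ)^2 ∧ U' = (q:ℤ)^2 ∧ (p:ℤ) * q = n := by
  obtain ⟨p0, hp0⟩ := Int.sq_of_gcd_eq_one (Int.isCoprime_iff_gcd_eq_one.mp hcop) h
  obtain ⟨q0, hq0⟩ := Int.sq_of_gcd_eq_one (Int.isCoprime_iff_gcd_eq_one.mp hcop.symm)
    (by rw [mul_comm]; exact h)
  have hp1 : U = p0^2 := by
    rcases hp0 with h | h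
    · exact h
    · nlinarith [sq_nonneg p0]
  have hq1 : U' = q0^2 := by
    rcases hq0 with h | h
    · exact h
    · nlinarith [sq_nonneg q0]
  have hp2 : U = (p0.natAbs:ℤ)^2 := by rw [Int.natAbs_sq]; exact hp1
  have hq2 : U' = (q0.natAbs:ℤ)^2 := by rw [Int.natAbs_sq]; exact hq1
  have hp3 : 0 < p0.natAbs := by
    rcases Nat.eq_zero_or_pos p0.natAbs with h0 | h0
    · rw [h0] at hp2; simp at hp2; omega
    · exact h0
  have hq3 : 0 < q0.natAbs := by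
    rcases Nat.eq_zero_or_pos q0.natAbs with h0 | h0
    · rw [h0] at hq2; simp at hq2; omega
    · exact h0
  refine ⟨p0.natAbs, q0.natAbs, hp3, hq3, ?_, hp2, hq2, ?_⟩
  · rw [hp2, hq2] at hcop
    exact Nat.isCoprime_iff_coprime.mp ((IsCoprime.pow_iff (by norm_num) (by norm_num)).mp hcop)
  · have : ((p0.natAbs:ℤ) * q0.natAbs)^2 = n^2 := by rw [mul_pow, ← hp2, ← hq2, h]
    exact (sq_eq_sq₀ (by positivity) hn.le).mp this


lemma split_odd (a b n : ℤ) (hcop : IsCoprime a n) (hodd : n % 2 = 1) (ha : 0 < a) (hb : 0 ≤ b)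
    (hn : 0 < n) (h : a^2 - n^2 = b^2) :
    ∃ p q : ℕ, 0 < p ∧ 0 < q ∧ Nat.Coprime p q ∧ (p:ℤ) * q = n ∧ (p:ℤ)^2 + (q:ℤ)^2 = 2 * a := by
  have hprod : (a + b) * (a - b) = n^2 := by linear_combination h
  have hU : 0 < a + b := by linarith
  have hU' : 0 < a - b := by
    have : 0 < (a + b) * (a - b) := by rw [hprod]; positivity
    exact (pos_iff_pos_of_mul_pos this).mp hU
  have h1 : IsCoprime a ((a + b) * (a - b)) := by rw [hprod]; exact hcop.pow_right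
  have h2 : IsCoprime a (a + b) := (IsCoprime.mul_right_iff.mp h1).1
  have hoddU : (a + b) % 2 = 1 := by
    have h3 : ((a + b) * (a - b)) % 2 = 1 := by
      rw [hprod, pow_two, Int.mul_emod, hodd]; norm_num
    rcases Int.emod_two_eq_zero_or_one (a + b) with h0 | h0
    · rw [Int.mul_emod, h0] at h3; simp at h3
    · exact h0
  have h4 : IsCoprime 2 (a + b) := by
    refine ⟨-((a + b) / 2), 1, ?_⟩
    have := Int.emod_add_mul_ediv (a + b) 2
    linarith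
  have h5 : IsCoprime (2 * a) (a + b) := IsCoprime.mul_left h4 h2
  have h6 : IsCoprime (a - b) (a + b) := by
    have := h5.add_mul_left_left (-1)
    have e : 2 * a + (a + b) * (-1) = a - b := by ring
    rwa [e] at this
  obtain ⟨p, q, hp, hq, hpq, e1, e2, e3⟩ := sq_split (a + b) (a - b) n hU hU' hn h6.symm hprod
  exact ⟨p, q, hp, hq, hpq, e3, by rw [← e1, ← e2]; ring⟩

lemma split_even (a b n : ℤ) (hcop : IsCoprime a n) (heven : n % 2 = 0) (ha : 0 < a) (hb : 0 ≤ b)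
    (hn : 0 < n) (h : a^2 - n^2 = b^2) :
    ∃ p q : ℕ, 0 < p ∧ 0 < q ∧ Nat.Coprime p q ∧ 2 * ((p:ℤ) * q) = n ∧ (p:ℤ)^2 + (q:ℤ)^2 = a := by
  have haodd : a % 2 = 1 := by
    rcases odd_or_odd_of_isCoprime hcop with h0 | h0
    · exact h0
    · omega
  have hbodd : b % 2 = 1 := by
    have hA := sq_mod8 a
    have hN := sq_mod8 n
    have hB := sq_mod8 b
    omega
  obtain ⟨n₁, rfl⟩ : (2:ℤ) ∣ n := Int.dvd_of_emod_eq_zero heven
  obtain ⟨P, hP⟩ : (2:ℤ) ∣ a + b := by omega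
  obtain ⟨Q, hQ⟩ : (2:ℤ) ∣ a - b := by omega
  have haPQ : a = P + Q := by linarith
  have hbPQ : b = P - Q := by linarith
  have hprod : P * Q = n₁^2 := by
    have : (a + b) * (a - b) = 4 * n₁^2 := by linear_combination h
    rw [hP, hQ] at this
    linarith
  have hn1 : 0 < n₁ := by linarith
  have hPpos : 0 < P := by linarith
  have hQpos : 0 < Q := by
    have : 0 < P * Q := by rw [hprod]; positivity
    exact (pos_iff_pos_of_mul_pos this).mp hPpos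
  have h1 : IsCoprime a (n₁^2) := (hcop.of_mul_right_right).pow_right
  rw [← hprod, haPQ] at h1
  have h2 : IsCoprime (P + Q) P := (IsCoprime.mul_right_iff.mp h1).1
  have h3 : IsCoprime Q P := by
    have e : P + Q = Q + P * 1 := by ring
    rw [e] at h2
    exact h2.of_add_mul_left_left
  obtain ⟨p, q, hp, hq, hpq, e1, e2, e3⟩ := sq_split P Q n₁ hPpos hQpos hn1 h3.symm hprod
  exact ⟨p, q, hp, hq, hpq, by rw [e3], by rw [← e1, ← e2, haPQ]⟩

lemma descent_step_pos (a e b c : ℤ) (hcop : IsCoprime a e) (ha : 0 < a) (hb : 0 ≤ b) (hc : 0 ≤ c)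
    (he : 0 < e) (h : Sys a e b c) :
    ∃ a' e' b' c' : ℤ, IsCoprime a' e' ∧ 0 < e' ∧ e' < e ∧ Sys a' e' b' c' := by
  obtain ⟨h1, h2⟩ := h
  have h3a : ¬ (3:ℤ) ∣ a := by
    intro h3
    have : (3:ℤ) ∣ b^2 + e^2 := by
      obtain ⟨a', rfl⟩ := h3
      exact ⟨3 * a'^2, by linear_combination -h1⟩
    have h3e := (three_dvd_of_sq_add_sq this).2
    have := hcop.isUnit_of_dvd' h3 h3e
    rw [Int.isUnit_iff] at this
    omega
  have hcop3 : IsCoprime a 3 := ((Int.prime_three.coprime_iff_not_dvd).mpr h3a).symm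
  have hcop9 : IsCoprime a (9 * e) := by
    have : IsCoprime a (3 * 3 * e) := (hcop3.mul_right hcop3).mul_right hcop
    norm_num at this; exact this
  have h2' : a^2 - (9*e)^2 = c^2 := by linear_combination h2
  rcases Int.emod_two_eq_zero_or_one e with hpar | hpar
  · obtain ⟨p, q, hp, hq, hpq, e1, e2⟩ := split_even a b e hcop hpar ha hb he h1
    obtain ⟨r, s, hr, hs, hrs, f1, f2⟩ := split_even a c (9*e) hcop9 (by omega) ha hc (by linarith) h2'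
    obtain ⟨a', e', b', c', g1, g2, g3, g4⟩ := sigma_nine p q r s hp hq hr hs hpq hrs
      (by
        have : (r:ℤ) * s = 9 * ((p:ℤ) * q) := by linarith
        exact_mod_cast this)
      (by rw [e2, f2])
    have hpq0 : 0 < (p:ℤ) * q := by positivity
    exact ⟨a', e', b', c', g1, g2, by linarith, g4⟩
  · obtain ⟨p, q, hp, hq, hpq, e1, e2⟩ := split_odd a b e hcop hpar ha hb he h1
    obtain ⟨r, s, hr, hs, hrs, f1, f2⟩ := split_odd a c (9*e) hcop9 (by omega) ha hc (by linarith) h2'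
    obtain ⟨a', e', b', c', g1, g2, g3, g4⟩ := sigma_nine p q r s hp hq hr hs hpq hrs
      (by
        have : (r:ℤ) * s = 9 * ((p:ℤ) * q) := by linarith
        exact_mod_cast this)
      (by rw [e2, f2])
    exact ⟨a', e', b', c', g1, g2, by linarith, g4⟩

lemma descent_step (a e b c : ℤ) (hcop : IsCoprime a e) (he : 0 < e) (h : Sys a e b c) :
    ∃ a' e' b' c' : ℤ, IsCoprime a' e' ∧ 0 < e' ∧ e' < e ∧ Sys a' e' b' c' := by
  have ha : a ≠ 0 := by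
    rintro rfl
    have := h.1
    nlinarith [sq_nonneg b]
  exact descent_step_pos |a| e |b| |c| hcop.abs_left (abs_pos.mpr ha) (abs_nonneg b) (abs_nonneg c) he
    ⟨by rw [sq_abs, sq_abs]; exact h.1, by rw [sq_abs, sq_abs]; exact h.2⟩

theorem no_pos_solution : ∀ (n : ℕ) (a e b c : ℤ), IsCoprime a e → 0 < e → e.toNat = n →
    Sys a e b c → False := by
  intro n
  induction n using Nat.strong_induction_on with
  | _ n ih =>
    intro a e b c hcop he hn h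
    obtain ⟨a', e', b', c', g1, g2, g3, g4⟩ := descent_step a e b c hcop he h
    exact ih e'.toNat (by omega) a' e' b' c' g1 g2 rfl g4

/-- Hub lemma. -/
theorem hub (a e b c : ℤ) (hcop : IsCoprime a e) (h1 : a^2 - e^2 = b^2)
    (h2 : a^2 - 81*e^2 = c^2) : e = 0 := by
  by_contra he
  refine no_pos_solution _ a |e| b c hcop.abs_right (abs_pos.mpr he) rfl ⟨?_, ?_⟩
  · rw [sq_abs]; exact h1
  · rw [sq_abs]; exact h2

/-- Rational form of the hub lemma. -/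
theorem hub_rat (F G H : ℚ) (h1 : F^2 - 1 = G^2) (h2 : F^2 - 81 = H^2) : False := by
  have hden : (F.den : ℚ) ≠ 0 := by exact_mod_cast F.den_nz
  have hF : F * F.den = F.num := Rat.mul_den_eq_num F
  have hcop : IsCoprime F.num (F.den : ℤ) := by
    rw [Int.isCoprime_iff_gcd_eq_one]
    have := F.reduced
    simpa [Int.gcd, Nat.Coprime] using this
  have s1 : IsSquare (((F.num^2 - (F.den:ℤ)^2 : ℤ)) : ℚ) := by
    refine ⟨G * F.den, ?_⟩
    push_cast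
    rw [← hF]
    linear_combination (F.den:ℚ)^2 * h1
  have s2 : IsSquare (((F.num^2 - 81 * (F.den:ℤ)^2 : ℤ)) : ℚ) := by
    refine ⟨H * F.den, ?_⟩
    push_cast
    rw [← hF]
    linear_combination (F.den:ℚ)^2 * h2
  rw [Rat.isSquare_intCast_iff] at s1 s2
  obtain ⟨b, hb⟩ := s1
  obtain ⟨c, hc⟩ := s2
  have := hub F.num F.den b c hcop (by rw [hb]; ring) (by rw [hc]; ring)
  exact F.den_nz (by exact_mod_cast this)

end Fermat.Agent.S51.Hub
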