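import Mathlib

set_option autoImplicit false

namespace Fermat.Agent.S51.Poly

open Polynomial

variable {K : Type*} [Field K] (b2 b4 b6 b8 : K)

/-- `ψ₂²` as a function of `x`. -/
def f (x : K) : K := 4 * x ^ 3 + b2 * x ^ 2 + 2 * b4 * x + b6

/-- numerator of the duplication map on `x`-coordinates -/
def phi (x : K) : K := x ^ 4 - b4 * x ^ 2 - 2 * b6 * x - b8

def psi3 (x : K) : K := 3 * x ^ 4 + b2 * x ^ 3 + 3 * b4 * x ^ 2 + 3 * b6 * x + b8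

def g4 (x : K) : K := 2 * x ^ 6 + b2 * x ^ 5 + 5 * b4 * x ^ 4 + 10 * b6 * x ^ 3 + 10 * b8 * x ^ 2
  + (b2 * b8 - b4 * b6) * x + (b4 * b8 - b6 ^ 2)

def psi5 (x : K) : K := g4 b2 b4 b6 b8 x * f b2 b4 b6 x ^ 2 - psi3 b2 b4 b6 b8 x ^ 3

def disc : K := -b2 ^ 2 * b8 - 8 * b4 ^ 3 - 27 * b6 ^ 2 + 9 * b2 * b4 * b6

variable {b2 b4 b6 b8}

lemma psi3_eq (x : K) : x * f b2 b4 b6 x - phi b4 b6 b8 x = psi3 b2 b4 b6 b8 x := by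
  simp only [f, phi, psi3]; ring

lemma bezout (hb8 : 4 * b8 = b2 * b6 - b4 ^ 2) (x : K) :
    (-48 * x ^ 2 - 8 * x * b2 + b2 ^ 2 - 32 * b4) * phi b4 b6 b8 x
      + (12 * x ^ 3 - x ^ 2 * b2 - 10 * x * b4 + b2 * b4 - 27 * b6) * f b2 b4 b6 x
      = disc b2 b4 b6 b8 := by
  simp only [f, phi, disc]
  linear_combination (12 * x ^ 2 + 2 * x * b2 + 8 * b4) * hb8

lemma f_phi_ne (hb8 : 4 * b8 = b2 * b6 - b4 ^ 2) (hd : disc b2 b4 b6 b8 ≠ 0) {x : K}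
    (hf : f b2 b4 b6 x = 0) (hphi : phi b4 b6 b8 x = 0) : False := by
  apply hd
  rw [← bezout hb8 x, hf, hphi]; ring

lemma fh_eq (hb8 : 4 * b8 = b2 * b6 - b4 ^ 2) (x : K) :
    4 * phi b4 b6 b8 x ^ 3 + b2 * phi b4 b6 b8 x ^ 2 * f b2 b4 b6 x
      + 2 * b4 * phi b4 b6 b8 x * f b2 b4 b6 x ^ 2 + b6 * f b2 b4 b6 x ^ 3
      = g4 b2 b4 b6 b8 x ^ 2 := by
  simp only [f, phi, g4]
  linear_combination (-13 * x ^ 8 - 8 * x ^ 7 * b2 - x ^ 6 * b2 ^ 2 - 28 * x ^ 6 * b4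
    - 6 * x ^ 5 * b2 * b4 - 38 * x ^ 5 * b6 - 7 * x ^ 4 * b2 * b6 - 8 * x ^ 4 * b4 ^ 2
    - 22 * x ^ 4 * b8 - 4 * x ^ 3 * b2 * b8 - 16 * x ^ 3 * b4 * b6 - 8 * x ^ 2 * b4 * b8
    - 7 * x ^ 2 * b6 ^ 2 - 6 * x * b6 * b8 - b8 ^ 2) * hb8

lemma F16 (hb8 : 4 * b8 = b2 * b6 - b4 ^ 2) (x : K) :
    phi b4 b6 b8 x ^ 4 - b4 * phi b4 b6 b8 x ^ 2 * f b2 b4 b6 x ^ 2
      - 2 * b6 * phi b4 b6 b8 x * f b2 b4 b6 x ^ 3 - b8 * f b2 b4 b6 x ^ 4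
      - x * f b2 b4 b6 x * (4 * phi b4 b6 b8 x ^ 3 + b2 * phi b4 b6 b8 x ^ 2 * f b2 b4 b6 x
      + 2 * b4 * phi b4 b6 b8 x * f b2 b4 b6 x ^ 2 + b6 * f b2 b4 b6 x ^ 3)
      = - psi3 b2 b4 b6 b8 x * psi5 b2 b4 b6 b8 x := by
  simp only [f, phi, g4, psi3, psi5]
  linear_combination (48 * x ^ 12 + 40 * x ^ 11 * b2 + 11 * x ^ 10 * b2 ^ 2 + 96 * x ^ 10 * b4
    + x ^ 9 * b2 ^ 3 + 52 * x ^ 9 * b2 * b4 + 72 * x ^ 9 * b6 + 7 * x ^ 8 * b2 ^ 2 * b4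
    + 38 * x ^ 8 * b2 * b6 + 60 * x ^ 8 * b4 ^ 2 + 16 * x ^ 8 * b8 + 5 * x ^ 7 * b2 ^ 2 * b6
    + 16 * x ^ 7 * b2 * b4 ^ 2 + 8 * x ^ 7 * b2 * b8 + 84 * x ^ 7 * b4 * b6 + x ^ 6 * b2 ^ 2 * b8
    + 22 * x ^ 6 * b2 * b4 * b6 + 12 * x ^ 6 * b4 ^ 3 + 16 * x ^ 6 * b4 * b8 + 27 * x ^ 6 * b6 ^ 2
    + 4 * x ^ 5 * b2 * b4 * b8 + 7 * x ^ 5 * b2 * b6 ^ 2 + 24 * x ^ 5 * b4 ^ 2 * b6
    + 8 * x ^ 5 * b6 * b8 + 2 * x ^ 4 * b2 * b6 * b8 + 4 * x ^ 4 * b4 ^ 2 * b8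
    + 15 * x ^ 4 * b4 * b6 ^ 2 + 4 * x ^ 3 * b4 * b6 * b8 + 3 * x ^ 3 * b6 ^ 3
    + x ^ 2 * b6 ^ 2 * b8) * hb8

/-- `f (φ/f) * f³ = g4²`. -/
lemma f_dup (hb8 : 4 * b8 = b2 * b6 - b4 ^ 2) {x1 x2 : K}
    (h12 : x2 * f b2 b4 b6 x1 = phi b4 b6 b8 x1) :
    f b2 b4 b6 x2 * f b2 b4 b6 x1 ^ 3 = g4 b2 b4 b6 b8 x1 ^ 2 := by
  rw [← fh_eq hb8 x1, ← h12]
  conv_lhs => rw [f]
  ring

/-- `(φ(x2) - x1 f(x2)) f(x1)⁴ = -ψ₃ψ₅`. -/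
lemma phi_dup (hb8 : 4 * b8 = b2 * b6 - b4 ^ 2) {x1 x2 : K}
    (h12 : x2 * f b2 b4 b6 x1 = phi b4 b6 b8 x1) :
    (phi b4 b6 b8 x2 - x1 * f b2 b4 b6 x2) * f b2 b4 b6 x1 ^ 4
      = - psi3 b2 b4 b6 b8 x1 * psi5 b2 b4 b6 b8 x1 := by
  rw [← F16 hb8 x1, ← h12]
  conv_lhs => rw [phi, f]
  ring

/-- a root of `ψ₅` gives a `2`-cycle of the duplication map -/
lemma cycle_of_psi5 (hb8 : 4 * b8 = b2 * b6 - b4 ^ 2) (hd : disc b2 b4 b6 b8 ≠ 0) {x1 : K}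
    (h5 : psi5 b2 b4 b6 b8 x1 = 0) :
    ∃ x2 : K, x1 ≠ x2 ∧ f b2 b4 b6 x1 ≠ 0 ∧ f b2 b4 b6 x2 ≠ 0 ∧
      x2 * f b2 b4 b6 x1 = phi b4 b6 b8 x1 ∧ x1 * f b2 b4 b6 x2 = phi b4 b6 b8 x2 := by
  have hf1 : f b2 b4 b6 x1 ≠ 0 := by
    intro hf
    have h3 : psi3 b2 b4 b6 b8 x1 = 0 := by
      have : psi3 b2 b4 b6 b8 x1 ^ 3 = 0 := by
        rw [psi5, hf] at h5; linear_combination -h5
      exact pow_eq_zero_iff (three_ne_zero) |>.mp this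
    refine f_phi_ne hb8 hd hf ?_
    have := psi3_eq (b2 := b2) (b4 := b4) (b6 := b6) (b8 := b8) x1
    rw [h3, hf] at this; linear_combination -this
  have h12 : (phi b4 b6 b8 x1 / f b2 b4 b6 x1) * f b2 b4 b6 x1 = phi b4 b6 b8 x1 :=
    div_mul_cancel₀ _ hf1
  obtain ⟨x2, hx2⟩ : ∃ x2, x2 = phi b4 b6 b8 x1 / f b2 b4 b6 x1 := ⟨_, rfl⟩
  rw [← hx2] at h12
  have hg : g4 b2 b4 b6 b8 x1 ≠ 0 := by
    intro hg
    have h3 : psi3 b2 b4 b6 b8 x1 = 0 := by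
      have : psi3 b2 b4 b6 b8 x1 ^ 3 = 0 := by
        rw [psi5, hg] at h5; linear_combination -h5
      exact pow_eq_zero_iff (three_ne_zero) |>.mp this
    have hx : x2 = x1 := by
      have := psi3_eq (b2 := b2) (b4 := b4) (b6 := b6) (b8 := b8) x1
      rw [h3, ← h12] at this
      have h0 : (x1 - x2) * f b2 b4 b6 x1 = 0 := by linear_combination this
      have := (mul_eq_zero.mp h0).resolve_right hf1
      linear_combination -this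
    have := f_dup hb8 h12
    rw [hx, hg] at this
    have h4 : f b2 b4 b6 x1 ^ 4 = 0 := by linear_combination this
    exact hf1 (pow_eq_zero_iff (by norm_num) |>.mp h4)
  have hf2 : f b2 b4 b6 x2 ≠ 0 := by
    intro hf2
    have := f_dup hb8 h12
    rw [hf2, zero_mul] at this
    exact hg (pow_eq_zero_iff (two_ne_zero) |>.mp this.symm)
  refine ⟨x2, ?_, hf1, hf2, h12, ?_⟩
  · intro hx
    have h3 : psi3 b2 b4 b6 b8 x1 = 0 := by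
      rw [← psi3_eq, ← h12, ← hx]; ring
    rw [psi5, h3] at h5
    have : g4 b2 b4 b6 b8 x1 * f b2 b4 b6 x1 ^ 2 = 0 := by linear_combination h5
    rcases mul_eq_zero.mp this with h | h
    · exact hg h
    · exact hf1 (pow_eq_zero_iff (two_ne_zero) |>.mp h)
  · have := phi_dup hb8 h12
    rw [h5, mul_zero] at this
    have h0 := (mul_eq_zero.mp this).resolve_right (pow_ne_zero 4 hf1)
    linear_combination -h0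

/-- a `2`-cycle of the duplication map gives a root of `ψ₅` -/
lemma psi5_of_cycle (hb8 : 4 * b8 = b2 * b6 - b4 ^ 2) (hd : disc b2 b4 b6 b8 ≠ 0) {x1 x2 : K}
    (hne : x1 ≠ x2) (h12 : x2 * f b2 b4 b6 x1 = phi b4 b6 b8 x1)
    (h21 : x1 * f b2 b4 b6 x2 = phi b4 b6 b8 x2) : psi5 b2 b4 b6 b8 x1 = 0 := by
  have hf1 : f b2 b4 b6 x1 ≠ 0 := by
    intro hf
    rw [hf, mul_zero] at h12
    exact f_phi_ne hb8 hd hf h12.symm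
  have h3 : psi3 b2 b4 b6 b8 x1 ≠ 0 := by
    rw [← psi3_eq, ← h12]
    intro h
    have h0 : (x1 - x2) * f b2 b4 b6 x1 = 0 := by linear_combination h
    exact (mul_ne_zero (sub_ne_zero.mpr hne) hf1) h0
  have := phi_dup hb8 h12
  rw [h21, sub_self, zero_mul] at this
  have h0 : psi3 b2 b4 b6 b8 x1 * psi5 b2 b4 b6 b8 x1 = 0 := by linear_combination this
  exact (mul_eq_zero.mp h0).resolve_left h3

variable (b2 b4 b6 b8)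

noncomputable def psi3Poly : K[X] :=
  C 3 * X ^ 4 + C b2 * X ^ 3 + C (3 * b4) * X ^ 2 + C (3 * b6) * X + C b8

noncomputable def psi5Poly : K[X] :=
  C 5 * X ^ 12 + C (5 * b2) * X ^ 11 + C (b2 ^ 2 + 31 * b4) * X ^ 10
  + C (10 * b2 * b4 + 95 * b6) * X ^ 9 + C (38 * b2 * b6 + 7 * b4 ^ 2 + 133 * b8) * X ^ 8
  + C (3 * b2 ^ 2 * b6 - 3 * b2 * b4 ^ 2 + 78 * b2 * b8 + 30 * b4 * b6) * X ^ 7
  + C (15 * b2 ^ 2 * b8 - 8 * b2 * b4 * b6 - 7 * b4 ^ 3 + 122 * b4 * b8 - 15 * b6 ^ 2) * X ^ 6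
  + C (b2 ^ 3 * b8 - b2 ^ 2 * b4 * b6 + 46 * b2 * b4 * b8 - 14 * b2 * b6 ^ 2 - 37 * b4 ^ 2 * b6
      + 26 * b6 * b8) * X ^ 5
  + C (5 * b2 ^ 2 * b4 * b8 - b2 ^ 2 * b6 ^ 2 - 4 * b2 * b4 ^ 2 * b6 + 10 * b2 * b6 * b8
      + 29 * b4 ^ 2 * b8 - 60 * b4 * b6 ^ 2 - 9 * b8 ^ 2) * X ^ 4
  + C (2 * b2 ^ 2 * b6 * b8 + 8 * b2 * b4 ^ 2 * b8 - 6 * b2 * b4 * b6 ^ 2 - 3 * b2 * b8 ^ 2
      - 4 * b4 ^ 3 * b6 - 6 * b4 * b6 * b8 - 25 * b6 ^ 3) * X ^ 3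
  + C (6 * b2 * b4 * b6 * b8 - 2 * b2 * b6 ^ 3 + 4 * b4 ^ 3 * b8 - 8 * b4 ^ 2 * b6 ^ 2
      - 9 * b4 * b8 ^ 2 - 17 * b6 ^ 2 * b8) * X ^ 2
  + C (b2 * b6 ^ 2 * b8 + 4 * b4 ^ 2 * b6 * b8 - 5 * b4 * b6 ^ 3 - 9 * b6 * b8 ^ 2) * X
  + C (b4 * b6 ^ 2 * b8 - b6 ^ 4 - b8 ^ 3)

variable {b2 b4 b6 b8}

lemma psi3Poly_eval (x : K) : (psi3Poly b2 b4 b6 b8).eval x = psi3 b2 b4 b6 b8 x := by
  simp only [psi3Poly, psi3, eval_add, eval_mul, eval_C, eval_pow, eval_X]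

lemma psi5Poly_eval (x : K) : (psi5Poly b2 b4 b6 b8).eval x = psi5 b2 b4 b6 b8 x := by
  simp only [psi5Poly, psi5, psi3, g4, f, eval_add, eval_mul, eval_C, eval_pow, eval_X]
  ring

lemma psi3Poly_natDegree (h3 : (3 : K) ≠ 0) : (psi3Poly b2 b4 b6 b8).natDegree = 4 := by
  unfold psi3Poly
  compute_degree!

lemma psi5Poly_natDegree (h5 : (5 : K) ≠ 0) : (psi5Poly b2 b4 b6 b8).natDegree = 12 := by
  unfold psi5Poly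
  compute_degree!

lemma psi3_roots (h3 : (3 : K) ≠ 0) :
    ∃ S : Finset K, S.card ≤ 4 ∧ ∀ x, psi3 b2 b4 b6 b8 x = 0 → x ∈ S := by
  classical
  have hne : psi3Poly b2 b4 b6 b8 ≠ 0 := by
    intro h
    have := psi3Poly_natDegree (b2 := b2) (b4 := b4) (b6 := b6) (b8 := b8) h3
    rw [h] at this; simp at this
  refine ⟨(psi3Poly b2 b4 b6 b8).roots.toFinset, ?_, fun x hx => ?_⟩
  · calc _ ≤ Multiset.card (psi3Poly b2 b4 b6 b8).roots := Multiset.toFinset_card_le _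
      _ ≤ (psi3Poly b2 b4 b6 b8).natDegree := card_roots' _
      _ = 4 := psi3Poly_natDegree h3
  · rw [Multiset.mem_toFinset, mem_roots hne, IsRoot.def, psi3Poly_eval, hx]

lemma psi5_roots (h5 : (5 : K) ≠ 0) :
    ∃ S : Finset K, S.card ≤ 12 ∧ ∀ x, psi5 b2 b4 b6 b8 x = 0 → x ∈ S := by
  classical
  have hne : psi5Poly b2 b4 b6 b8 ≠ 0 := by
    intro h
    have := psi5Poly_natDegree (b2 := b2) (b4 := b4) (b6 := b6) (b8 := b8) h5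
    rw [h] at this; simp at this
  refine ⟨(psi5Poly b2 b4 b6 b8).roots.toFinset, ?_, fun x hx => ?_⟩
  · calc _ ≤ Multiset.card (psi5Poly b2 b4 b6 b8).roots := Multiset.toFinset_card_le _
      _ ≤ (psi5Poly b2 b4 b6 b8).natDegree := card_roots' _
      _ = 12 := psi5Poly_natDegree h5
  · rw [Multiset.mem_toFinset, mem_roots hne, IsRoot.def, psi5Poly_eval, hx]

lemma exists_psi3_root [IsAlgClosed K] (h3 : (3 : K) ≠ 0) : ∃ x, psi3 b2 b4 b6 b8 x = 0 := by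
  obtain ⟨x, hx⟩ := IsAlgClosed.exists_root (psi3Poly b2 b4 b6 b8) (by
    rw [degree_eq_natDegree (by
      intro h
      have := psi3Poly_natDegree (b2 := b2) (b4 := b4) (b6 := b6) (b8 := b8) h3
      rw [h] at this; simp at this), psi3Poly_natDegree h3]
    norm_num)
  exact ⟨x, by rw [← psi3Poly_eval]; exact hx⟩

lemma exists_psi5_root [IsAlgClosed K] (h5 : (5 : K) ≠ 0) : ∃ x, psi5 b2 b4 b6 b8 x = 0 := by
  obtain ⟨x, hx⟩ := IsAlgClosed.exists_root (psi5Poly b2 b4 b6 b8) (by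
    rw [degree_eq_natDegree (by
      intro h
      have := psi5Poly_natDegree (b2 := b2) (b4 := b4) (b6 := b6) (b8 := b8) h5
      rw [h] at this; simp at this), psi5Poly_natDegree h5]
    norm_num)
  exact ⟨x, by rw [← psi5Poly_eval]; exact hx⟩

end Fermat.Agent.S51.Poly
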